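import Fermat.Agent.S35.Unit
import Fermat.Agent.S34.Mod.Wq
import Fermat.Prelude.Def_ModularCurve_X0ModL

/-!
# S35/ES5, parts IDEM, COMMON : simultaneous approximation on the two components

`M = M1 q`, `A ∣ q`, `W = W_q`, `k = kA A`, `V` = `q ↦ q ^ q` (`qExpand k q`).

## IDEM `exists_idem`
`j = jN M1` has integer coefficients: `J = red j = jqModC k` satisfies `Fr J = J`, so `V J = J ^ q`.
`x = β j - (α j) ^ q`, `y = β (j - j ^ (q ^ 2))`, `d = J - J ^ (q ^ 2) ≠ 0` (pole orders):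
`red x = V J - J ^ q = 0`, `red (W x) = J - (V J) ^ q = d`, `red y = V d ≠ 0`, `red (W y) = d`.
`e = 1 - x / y`.

## COMMON `exists_common`
`f̃ = c f`, `f̃₂ = c₂ f₂` with `Rd f̃ φ`, `Rd f̃₂ φ₂`, `φ, φ₂ ≠ 0`; `w = e * α f̃ + (1 - e) * β f̃₂` has `red w = φ`,
`red (W w) = φ₂`.
-/

set_option autoImplicit false
set_option synthInstance.maxHeartbeats 400000

open HahnSeries ModularCurve AlgebraicCurve Fermat.Agent.S24 Fermat.Agent.S29 Fermat.Agent.S18
  Fermat.Agent.ES.Alg Fermat.Agent.S34.Mod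

noncomputable section

namespace Fermat.Agent.S35

variable {M1 q : ℕ} [NeZero M1] [NeZero q] {A : ValuationSubring Kb}

theorem coe_jN_eq (N : ℕ) : ((jN N : FN N) : LaurentSeries Kb) = jqModC Kb := by
  show coeffEmb Kb (qExpand ℚ 1 jq) = _
  rw [qExpand_one_apply, coeffEmb, ← jqModC_rat, coeffMap_jqModC]

theorem rd_jq : Rd A (jqModC Kb) (jqModC (kA A)) := by
  have h := Rd.of_int (A := A) (jqModC A)
  rwa [coeffMap_jqModC, coeffMap_jqModC] at h

theorem rd_alpha {f : FN M1} {r : LaurentSeries (kA A)} (h : Rd A (f : LaurentSeries Kb) r) :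
    Rd A (heckeAlphaBar Kb M1 q f : LaurentSeries Kb) r := by
  rw [coe_heckeAlphaBar]; exact h

omit [NeZero M1] in
theorem rd_beta {f : FN M1} {r : LaurentSeries (kA A)} (h : Rd A (f : LaurentSeries Kb) r) :
    Rd A (heckeBetaBar Kb M1 q f : LaurentSeries Kb) (qExpand (kA A) q r) := by
  rw [coe_heckeBetaBar]; exact h.qExpand q

theorem jq_sub_pow_ne_zero (k : Type*) [Field k] {n : ℕ} (hn : 1 < n) :
    jqModC k - jqModC k ^ n ≠ 0 := by
  intro h
  have h1 := congrArg (fun s => s.coeff (-(n : ℤ))) h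
  simp only [HahnSeries.coeff_sub, HahnSeries.coeff_zero] at h1
  have h2 : (jqModC k).coeff (-(n : ℤ)) = 0 := by
    have := coeff_jqModC_pow_of_lt k (b := 1) (m := -(n : ℤ)) (by push_cast; omega)
    rwa [pow_one] at this
  rw [h2, coeff_jqModC_pow_self, zero_sub] at h1
  exact one_ne_zero (neg_eq_zero.mp h1)

/-- [S35/IDEM] an element which is `1` on the component of `∞` and `0` on the component of `0` -/
theorem exists_idem (hq : q.Prime) (h : Nat.Coprime q M1) (hA : A.LiesOverPrime q) :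
    ∃ e : FN (M1 * q), Rd A (e : LaurentSeries Kb) 1 ∧ Rd A (Wq h e : LaurentSeries Kb) 0 := by
  have : Fact q.Prime := ⟨hq⟩
  have : CharP (kA A) q := charP_kA hq hA
  set J : LaurentSeries (kA A) := jqModC (kA A) with hJ
  have hV : qExpand (kA A) q J = J ^ q := by
    rw [pow_char_eq_qExpand, coeffMap_jqModC]
  have hj : Rd A ((jN M1 : FN M1) : LaurentSeries Kb) J := by
    rw [coe_jN_eq]; exact rd_jq
  have ha : Rd A (heckeAlphaBar Kb M1 q (jN M1) : LaurentSeries Kb) J := rd_alpha hj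
  have hb : Rd A (heckeBetaBar Kb M1 q (jN M1) : LaurentSeries Kb) (J ^ q) := by
    have := rd_beta (q := q) hj
    rwa [hV] at this
  have hd : J - J ^ (q ^ 2) ≠ 0 :=
    jq_sub_pow_ne_zero (kA A) (Nat.one_lt_pow (by norm_num) hq.one_lt)
  have hd' : J ^ q - (J ^ q) ^ (q ^ 2) ≠ 0 := by
    have e1 : J ^ q - (J ^ q) ^ (q ^ 2) = qExpand (kA A) q (J - J ^ (q ^ 2)) := by
      rw [map_sub, map_pow, hV]
    rw [e1]
    exact (map_ne_zero_iff _ (qExpand_injective (R := kA A) q)).mpr hd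
  set α := heckeAlphaBar Kb M1 q (jN M1) with hα
  set β := heckeBetaBar Kb M1 q (jN M1) with hβ
  have hWα : Wq h α = β := Wq_alpha h _
  have hWβ : Wq h β = α := Wq_beta h _
  refine ⟨1 - (β - α ^ q) * (β - β ^ (q ^ 2))⁻¹, ?_, ?_⟩
  · have h1 := Rd.one.sub (((hb.sub (ha.pow q)).mul ((hb.sub (hb.pow (q ^ 2))).inv hd')))
    rw [sub_self, zero_mul, sub_zero] at h1
    push_cast
    exact h1
  · have h1 := Rd.one.sub (((ha.sub (hb.pow q)).mul ((ha.sub (ha.pow (q ^ 2))).inv hd)))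
    have e1 : (J ^ q) ^ q = J ^ (q ^ 2) := by rw [← pow_mul, sq]
    rw [e1, mul_inv_cancel₀ hd, sub_self] at h1
    rw [map_sub, map_one, map_mul, map_inv₀, map_sub, map_sub, map_pow, map_pow, hWα, hWβ]
    push_cast
    exact h1

/-- [S35/COMMON] simultaneous approximation on the two components -/
theorem exists_common (hq : q.Prime) (h : Nat.Coprime q M1) (hA : A.LiesOverPrime q)
    (f f₂ : FN M1) (hf : f ≠ 0) (hf₂ : f₂ ≠ 0) :
    ∃ w : FN (M1 * q), w ≠ 0 ∧
      Rp A ((w * (heckeAlphaBar Kb M1 q f)⁻¹ : FN (M1 * q)) : LaurentSeries Kb) 1 ∧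
      Rp A ((Wq h w * (heckeAlphaBar Kb M1 q f₂)⁻¹ : FN (M1 * q)) : LaurentSeries Kb) 1 ∧
      Rn A (w : LaurentSeries Kb) ∧ Rn A (Wq h w : LaurentSeries Kb) := by
  obtain ⟨e, he1, he2⟩ := exists_idem (A := A) hq h hA
  obtain ⟨φ, hφ⟩ := exists_rp A f hf
  obtain ⟨φ₂, hφ₂⟩ := exists_rp A f₂ hf₂
  obtain ⟨hφ0, c, hc, hcf⟩ := id hφ
  obtain ⟨hφ₂0, c₂, hc₂, hcf₂⟩ := id hφ₂
  have g1 : Rd A ((algebraMap Kb (FN M1) c * f : FN M1) : LaurentSeries Kb) φ := by
    push_cast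
    exact hcf
  have g2 : Rd A ((algebraMap Kb (FN M1) c₂ * f₂ : FN M1) : LaurentSeries Kb) φ₂ := by
    push_cast
    exact hcf₂
  set F1 := algebraMap Kb (FN M1) c * f with hF1
  set F2 := algebraMap Kb (FN M1) c₂ * f₂ with hF2
  set w := e * heckeAlphaBar Kb M1 q F1 + (1 - e) * heckeBetaBar Kb M1 q F2 with hw
  have w1 : Rd A (w : LaurentSeries Kb) φ := by
    have := (he1.mul (rd_alpha (q := q) g1)).add ((Rd.one.sub he1).mul (rd_beta (q := q) g2))
    rw [sub_self, zero_mul, add_zero, one_mul] at this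
    rw [hw]
    push_cast
    exact this
  have w2 : Rd A (Wq h w : LaurentSeries Kb) φ₂ := by
    have := (he2.mul (rd_beta (q := q) g1)).add ((Rd.one.sub he2).mul (rd_alpha (q := q) g2))
    rw [sub_zero, zero_mul, zero_add, one_mul] at this
    rw [hw, map_add (Wq h), map_mul (Wq h), map_mul (Wq h), map_sub (Wq h), map_one (Wq h),
      Wq_alpha, Wq_beta]
    push_cast
    exact this
  have a1 : Rp A (heckeAlphaBar Kb M1 q f : LaurentSeries Kb) φ := by
    rw [coe_heckeAlphaBar]; exact hφ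
  have a2 : Rp A (heckeAlphaBar Kb M1 q f₂ : LaurentSeries Kb) φ₂ := by
    rw [coe_heckeAlphaBar]; exact hφ₂
  refine ⟨w, fun h0 => w1.ne_zero hφ0 (by rw [h0]; rfl), ?_, ?_, ⟨φ, hφ0, w1⟩, ⟨φ₂, hφ₂0, w2⟩⟩
  · have := (w1.rp hφ0).mul a1.inv
    rw [mul_inv_cancel₀ hφ0] at this
    push_cast
    exact this
  · have := (w2.rp hφ₂0).mul a2.inv
    rw [mul_inv_cancel₀ hφ₂0] at this
    push_cast
    exact this

theorem PDiv.pow_self {K F : Type*} [Field K] [Field F] [Algebra K F] {m : ℕ} {w : F} (hw : w ≠ 0) :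
    PDiv K F m (w ^ m) :=
  ⟨pow_ne_zero _ hw, fun P => by rw [ord_pow']; exact Dvd.intro _ rfl⟩

end Fermat.Agent.S35
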