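import Fermat.Agent.S34.Glue

/-!
# S35 : definitions

`TT N S ℓ` : the Hecke operator `T_ℓ` in `heckeAlgebra N 2 S` (zero if `ℓ` is not a good prime),
`ev N S : ℤ[X_ℓ] → heckeAlgebra N 2 S`, `X_ℓ ↦ T_ℓ`.

`ESInterfaceF N S p` = the interface of `S31/Main.lean` with the clause on inertia replaced by

(ES5) `N = q N'`, `q ∤ N'`, `q ≠ p`, `P(T) = 0` at level `N'`, `σ` a Frobenius lift at `q`
      `⟹ a(P(T)) (σ² - q²) (σ² - 1) = 0` on `W`.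
-/

set_option autoImplicit false

namespace Fermat.Agent.S35

open Fermat.Agent.S29 (Qb GQ)

open Classical in
/-- `T_ℓ`, or zero if `ℓ` is not a prime outside `S` and prime to the level -/
noncomputable def TT (N : ℕ) [NeZero N] (S : Set ℕ) (ℓ : ℕ) : CuspForm.heckeAlgebra N 2 S :=
  if h : ℓ.Prime ∧ ¬ ℓ ∣ N ∧ ℓ ∉ S then CuspForm.heckeAlgebra.T h.1 h.2.1 h.2.2 else 0

theorem TT_eq {N : ℕ} [NeZero N] {S : Set ℕ} {ℓ : ℕ} (hℓ : ℓ.Prime) (hℓN : ¬ ℓ ∣ N) (hℓS : ℓ ∉ S) :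
    TT N S ℓ = CuspForm.heckeAlgebra.T hℓ hℓN hℓS := by
  unfold TT
  rw [dif_pos ⟨hℓ, hℓN, hℓS⟩]

/-- evaluation of integral polynomials at the Hecke operators -/
noncomputable def ev (N : ℕ) [NeZero N] (S : Set ℕ) :
    MvPolynomial ℕ ℤ →+* CuspForm.heckeAlgebra N 2 S :=
  (MvPolynomial.aeval (TT N S)).toRingHom

theorem ev_X (N : ℕ) [NeZero N] (S : Set ℕ) (ℓ : ℕ) : ev N S (MvPolynomial.X ℓ) = TT N S ℓ :=
  MvPolynomial.aeval_X _ _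

theorem ev_surjective {N : ℕ} [NeZero N] {S : Set ℕ}
    (hNS : ∀ q : ℕ, q.Prime → q ∣ N → q ∈ S) : Function.Surjective (ev N S) := by
  rintro ⟨t, ht⟩
  have h1 : CuspForm.heckeAlgebra N 2 S ≤
      ((MvPolynomial.aeval (R := ℤ) (TT N S)).range).map (CuspForm.heckeAlgebra N 2 S).val := by
    apply Algebra.adjoin_le
    rintro x (⟨ℓ, hℓ, hℓN, hℓS, rfl⟩ | ⟨q, hqN, hq, hqS, rfl⟩)
    · refine ⟨TT N S ℓ, ⟨MvPolynomial.X ℓ, MvPolynomial.aeval_X _ _⟩, ?_⟩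
      rw [TT_eq hℓ hℓN hℓS]; rfl
    · exact absurd (hNS q hq hqN) hqS
  obtain ⟨r, ⟨P, hP⟩, hr⟩ := h1 ht
  exact ⟨P, hP.trans (Subtype.ext hr)⟩

theorem ev_C (N : ℕ) [NeZero N] (S : Set ℕ) (r : ℤ) :
    ev N S (MvPolynomial.C r) = (r : CuspForm.heckeAlgebra N 2 S) := by
  have h : ev N S (MvPolynomial.C r) = algebraMap ℤ _ r := MvPolynomial.aeval_C _ _
  rw [h, eq_intCast]

/-- the Eichler–Shimura interface with the Frobenius relation at `q ‖ N` -/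
def ESInterfaceF (N : ℕ) [NeZero N] (S : Set ℕ) (p : ℕ) : Prop :=
  ∀ n : ℕ, ∃ (m : ℕ) (W : Type) (_ : AddCommGroup W) (act : GQ →* AddMonoid.End W)
    (a : CuspForm.heckeAlgebra N 2 S →+* AddMonoid.End W),
    n ≤ m ∧
    (∀ w : W, (p ^ m) • w = 0) ∧
    (∃ L : IntermediateField ℚ Qb, FiniteDimensional ℚ L ∧
      ∀ σ : GQ, (∀ x ∈ L, σ x = x) → act σ = 1) ∧
    (∀ (ℓ : ℕ) (hℓ : ℓ.Prime) (hℓN : ¬ ℓ ∣ N) (hℓS : ℓ ∉ S) (A : ValuationSubring Qb),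
      A.LiesOverPrime ℓ → ∀ τ : GQ, A.IsFrobeniusAt τ ℓ →
        act τ * act τ - a (CuspForm.heckeAlgebra.T hℓ hℓN hℓS) * act τ
          + (ℓ : AddMonoid.End W) = 0) ∧
    (∀ (q N' : ℕ) [NeZero N'], q.Prime → N = q * N' → ¬ q ∣ N' → q ≠ p →
      ∀ P : MvPolynomial ℕ ℤ, ev N' S P = 0 → ∀ A : ValuationSubring Qb,
      A.LiesOverPrime q → ∀ σ : GQ, A.IsFrobeniusAt σ q →
        a (ev N S P) * (act σ * act σ - ((q ^ 2 : ℕ) : AddMonoid.End W)) * (act σ * act σ - 1) = 0) ∧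
    (∀ x : CuspForm.heckeAlgebra N 2 S, a x = 0 → ∃ y, x = (p ^ n : ℕ) • y)

end Fermat.Agent.S35
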