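import Fermat.Agent.S29.K3Final
import Fermat.Agent.S31.Lat
import Fermat.Agent.S34.Mod.Wq
import Fermat.Agent.ES.AlgOrd
import Fermat.Agent.S35.Defs

/-!
# S35/ES5, part E1–E3 : the two norms `WW (M1 q) m → WW M1 m` and polynomials in the Hecke operators

`M = M1 * q`.  `nuOf φ` : the map induced on classes modulo `m`-th powers by a monoid hom `φ` of function fields.
`nuA` (norm along `α`), `nuB = nuA ∘ W_q`.  Both commute with the Galois action.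

`TT N S ℓ = T_ℓ` (`0` if `ℓ` is bad), `ev N S : ℤ[X_ℓ] → heckeAlgebra N 2 S` : helper26's `S35/Defs.lean`.

`nu_poly` : a Galois equivariant additive map `ν` with `ν (Θ_M c) = Θ_{M1} c₂` satisfies
`ν (Θ_M (P(T) c)) = Θ_{M1} (P(T) c₂)` (because `T_ℓ = σ + ℓ σ⁻¹` on both sides: `S29.Theta_ES`).

`norms_pow` : if `P(T) = 0` at level `M1`, both norms of the Kummer element of `P(T) c` are `m`-th powers
(`Surj M1 m` : every element whose divisor is divisible by `m` is a Kummer element).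
-/

set_option autoImplicit false

open ModularCurve AlgebraicCurve CongruenceSubgroup CuspForm
open Fermat.Agent.S24 Fermat.Agent.S29 Fermat.Agent.S31 Fermat.Agent.ES.Alg Fermat.Agent.S34.Mod

noncomputable section

namespace Fermat.Agent.S35

/-- surjectivity of `Θ` (helper16, S30/SURJ) -/
def Surj (N m : ℕ) [NeZero N] : Prop :=
  ∀ u : FN N, PDiv Kb (FN N) m u → ∃ c : Additive (Gamma0 N) →+ ℤ, c ∈ XN N ∧ IsKummer N m c u

section TT

theorem TT_eq_zero {N : ℕ} [NeZero N] {S : Set ℕ} {ℓ : ℕ} (h : ¬ (ℓ.Prime ∧ ¬ ℓ ∣ N ∧ ℓ ∉ S)) :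
    TT N S ℓ = 0 := by
  unfold TT
  rw [dif_neg h]

end TT

section nuOf

variable {N N' : ℕ} {m : ℕ}

theorem powSub_le_comap_map (φ : FN N →* FN N') :
    powSub N m ≤ (powSub N' m).comap (Units.map φ) := by
  rintro _ ⟨r, rfl⟩
  exact ⟨Units.map φ r, (map_pow (Units.map φ) r m).symm⟩

/-- the map induced on classes -/
def nuOf (φ : FN N →* FN N') : WW N m →+ WW N' m :=
  MonoidHom.toAdditive (QuotientGroup.map _ _ (Units.map φ) (powSub_le_comap_map φ))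

theorem nuOf_cls (φ : FN N →* FN N') (u : (FN N)ˣ) :
    (nuOf φ (cls u : WW N m) : WW N' m) = cls (Units.map φ u) := rfl

theorem nuOf_cl (φ : FN N →* FN N') {u : FN N} (hu : u ≠ 0) (hu' : φ u ≠ 0) :
    (nuOf φ (cl u hu : WW N m) : WW N' m) = cl (φ u) hu' := by
  rw [cl, nuOf_cls, cl]
  congr 1
  exact Units.ext rfl

theorem nuOf_actW (φ : FN N →* FN N') (σ : GQ) (h : ∀ x, φ (gal N σ x) = gal N' σ (φ x))
    (w : WW N m) : (nuOf φ (actW N m σ w) : WW N' m) = actW N' m σ (nuOf φ w) := by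
  obtain ⟨u, rfl⟩ := cls_surjective w
  rw [actW_cls, nuOf_cls, nuOf_cls, actW_cls]
  congr 1
  exact Units.ext (h u)

end nuOf

section Poly

section kev

variable {N : ℕ} [NeZero N] {S : Set ℕ}

theorem kap_ev_C (a : ℤ) (c : XN N) : kap (ev N S (MvPolynomial.C a)) c = a • c := by
  rw [ev_C, map_intCast]
  simp

theorem kap_ev_add (P Q : MvPolynomial ℕ ℤ) (c : XN N) :
    kap (ev N S (P + Q)) c = kap (ev N S P) c + kap (ev N S Q) c := by
  have h : ev N S (P + Q) = ev N S P + ev N S Q := map_add _ _ _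
  have h2 : kap (ev N S P + ev N S Q) = kap (ev N S P) + kap (ev N S Q) := map_add _ _ _
  rw [h, h2, LinearMap.add_apply]

theorem kap_ev_mul_X (P : MvPolynomial ℕ ℤ) (ℓ : ℕ) (c : XN N) :
    kap (ev N S (P * MvPolynomial.X ℓ)) c = kap (ev N S P) (kap (TT N S ℓ) c) := by
  have h : ev N S (P * MvPolynomial.X ℓ) = ev N S P * TT N S ℓ := by
    rw [map_mul, ev_X]
  have h2 : kap (ev N S P * TT N S ℓ) = kap (ev N S P) * kap (TT N S ℓ) := map_mul _ _ _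
  rw [h, h2, Module.End.mul_apply]

theorem kap_TT {ℓ : ℕ} (hℓ : ℓ.Prime) (hN : ¬ ℓ ∣ N) (hS : ℓ ∉ S) (c : XN N) :
    kap (TT N S ℓ) c = TX N ℓ c := by
  rw [TT_eq hℓ hN hS, kap_T, TX_eq hℓ hN]

theorem kap_TT_zero {ℓ : ℕ} (h : ¬ (ℓ.Prime ∧ ¬ ℓ ∣ N ∧ ℓ ∉ S)) (c : XN N) :
    kap (TT N S ℓ) c = 0 := by
  have k1 : kap (0 : heckeAlgebra N 2 S) = 0 := map_zero _
  rw [TT_eq_zero h, k1, LinearMap.zero_apply]

end kev

variable {M M1 m : ℕ} [NeZero M] [NeZero M1]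

theorem nu_step (hm : m ≠ 0) (hD : Desc M m) (hD1 : Desc M1 m) (hE : ES1 M m) (hE1 : ES1 M1 m)
    (hMM : M1 ∣ M) (S : Set ℕ) (hS : ∀ ℓ : ℕ, ℓ.Prime → ℓ ∣ M * m → ℓ ∈ S)
    (ν : WW M m →+ WW M1 m) (hν : ∀ (σ : GQ) (w : WW M m), ν (actW M m σ w) = actW M1 m σ (ν w))
    (ℓ : ℕ) (c : XN M) (c₂ : XN M1) (h : ν (Theta hm hD c) = Theta hm hD1 c₂) :
    ν (Theta hm hD (kap (TT M S ℓ) c)) = Theta hm hD1 (kap (TT M1 S ℓ) c₂) := by
  by_cases hℓ : ℓ.Prime ∧ ℓ ∉ S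
  · obtain ⟨hp, hnS⟩ := hℓ
    have hMm : ¬ ℓ ∣ M * m := fun hd => hnS (hS ℓ hp hd)
    have hM : ¬ ℓ ∣ M := fun hd => hMm (Dvd.dvd.mul_right hd m)
    have hM1 : ¬ ℓ ∣ M1 := fun hd => hM (hd.trans hMM)
    have hM1m : ¬ ℓ ∣ M1 * m := fun hd => hMm (hd.trans (Nat.mul_dvd_mul_right hMM m))
    obtain ⟨A, hA⟩ := Fermat.Agent.Frob.exists_liesOverPrime hp
    obtain ⟨σ, hσ⟩ := Fermat.Agent.Frob.exists_isFrobeniusAt A hp hA
    have h1 := Theta_ES hm hD (k3_holds M m) hE ℓ hp hMm A hA σ hσ 1 c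
    have h2 := Theta_ES hm hD1 (k3_holds M1 m) hE1 ℓ hp hM1m A hA σ hσ 1 c₂
    have a1 : ∀ w : WW M m, actW M m 1 w = w := fun w => by rw [map_one]; rfl
    have a2 : ∀ w : WW M1 m, actW M1 m 1 w = w := fun w => by rw [map_one]; rfl
    rw [a1, a1] at h1
    rw [a2, a2] at h2
    rw [kap_TT hp hM hnS c, kap_TT hp hM1 hnS c₂, h1, h2, map_add ν, map_nsmul ν, hν, hν, h]
  · rw [kap_TT_zero fun hh => hℓ ⟨hh.1, hh.2.2⟩, kap_TT_zero fun hh => hℓ ⟨hh.1, hh.2.2⟩,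
      map_zero (Theta hm hD), map_zero (Theta hm hD1), map_zero ν]

/-- polynomials in the Hecke operators commute with Galois equivariant maps -/
theorem nu_poly (hm : m ≠ 0) (hD : Desc M m) (hD1 : Desc M1 m) (hE : ES1 M m) (hE1 : ES1 M1 m)
    (hMM : M1 ∣ M) (S : Set ℕ) (hS : ∀ ℓ : ℕ, ℓ.Prime → ℓ ∣ M * m → ℓ ∈ S)
    (ν : WW M m →+ WW M1 m) (hν : ∀ (σ : GQ) (w : WW M m), ν (actW M m σ w) = actW M1 m σ (ν w))
    (P : MvPolynomial ℕ ℤ) : ∀ (c : XN M) (c₂ : XN M1), ν (Theta hm hD c) = Theta hm hD1 c₂ →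
      ν (Theta hm hD (kap (ev M S P) c)) = Theta hm hD1 (kap (ev M1 S P) c₂) := by
  induction P using MvPolynomial.induction_on with
  | C a =>
    intro c c₂ h
    rw [kap_ev_C, kap_ev_C, map_zsmul (Theta hm hD), map_zsmul (Theta hm hD1), ← h]
    exact map_zsmul ν a _
  | add P Q hP hQ =>
    intro c c₂ h
    rw [kap_ev_add, kap_ev_add, map_add (Theta hm hD), map_add (Theta hm hD1), map_add ν, hP c c₂ h,
      hQ c c₂ h]
  | mul_X P ℓ hP =>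
    intro c c₂ h
    rw [kap_ev_mul_X, kap_ev_mul_X]
    exact hP _ _ (nu_step hm hD hD1 hE hE1 hMM S hS ν hν ℓ c c₂ h)

end Poly

section Norms

variable {M1 q m : ℕ} [NeZero M1] [NeZero q]

/-- the norm along `α` on classes -/
def nuA : WW (M1 * q) m →+ WW M1 m := nuOf (normAlpha M1 q)

/-- the norm along `β` (`= ` norm along `α` after `W_q`) on classes -/
def nuB (h : Nat.Coprime q M1) : WW (M1 * q) m →+ WW M1 m :=
  nuOf ((normAlpha M1 q).comp ((Wq h : FN (M1 * q) →+* FN (M1 * q)) : FN (M1 * q) →* FN (M1 * q)))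

theorem nuA_actW (σ : GQ) (w : WW (M1 * q) m) :
    (nuA (actW (M1 * q) m σ w) : WW M1 m) = actW M1 m σ (nuA w) :=
  nuOf_actW _ σ (fun x => (gal_normAlpha M1 q σ x).symm) w

theorem nuB_actW (hq : q.Prime) (h : Nat.Coprime q M1) (σ : GQ) (w : WW (M1 * q) m) :
    (nuB h (actW (M1 * q) m σ w) : WW M1 m) = actW M1 m σ (nuB h w) :=
  nuOf_actW _ σ (fun x => by
    show normAlpha M1 q (Wq h (gal (M1 * q) σ x)) = gal M1 σ (normAlpha M1 q (Wq h x))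
    rw [gal_normAlpha, gal_Wq hq h]) w

theorem PDiv.normAlpha {u : FN (M1 * q)} (hu : PDiv Kb (FN (M1 * q)) m u) :
    PDiv Kb (FN M1) m (normAlpha M1 q u) := by
  let _ := algebraAlong (heckeAlphaBar Kb M1 q)
  have := isScalarTower_along (heckeAlphaBar Kb M1 q)
  have : FiniteDimensional (FN M1) (FN (M1 * q)) := finite_alpha M1 q
  have : CharZero (FN M1) :=
    charZero_of_injective_algebraMap (Algebra.algebraMap (R := Kb) (A := FN M1)).injective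
  exact PDiv.norm (F := FN M1) (F' := FN (M1 * q)) hu

/-- a Galois equivariant map which preserves `PDiv` kills `Θ (P(T) c)` if `P(T) = 0` at level `M1` -/
theorem nuOf_Theta_eq_zero (hm : m ≠ 0) (hD : Desc (M1 * q) m) (hD1 : Desc M1 m)
    (hE : ES1 (M1 * q) m) (hE1 : ES1 M1 m) (hSu : Surj M1 m) (S : Set ℕ)
    (hS : ∀ ℓ : ℕ, ℓ.Prime → ℓ ∣ M1 * q * m → ℓ ∈ S) (φ : FN (M1 * q) →* FN M1)
    (hφ : ∀ (σ : GQ) (x : FN (M1 * q)), φ (gal (M1 * q) σ x) = gal M1 σ (φ x))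
    (hφP : ∀ u : FN (M1 * q), PDiv Kb (FN (M1 * q)) m u → PDiv Kb (FN M1) m (φ u))
    (P : MvPolynomial ℕ ℤ) (hP : ev M1 S P = 0) (c : XN (M1 * q)) :
    ∃ h1 : FN M1, φ (uK hD (kap (ev (M1 * q) S P) c)) = h1 ^ m := by
  have hPD : ∀ c : XN (M1 * q), PDiv Kb (FN (M1 * q)) m (uK hD c) := fun c =>
    pdiv_of_isKummer (M1 * q) m c c.2 _ (isKummer_uK hD c)
  obtain ⟨c₂, hc₂, hk⟩ := hSu _ (hφP _ (hPD c))
  have h0 : (nuOf φ (Theta hm hD c) : WW M1 m) = Theta hm hD1 ⟨c₂, hc₂⟩ := by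
    rw [Theta_apply, nuOf_cl φ _ hk.ne_zero]
    exact (Theta_eq hm hD1 ⟨c₂, hc₂⟩ hk).symm
  have h1 := nu_poly hm hD hD1 hE hE1 (Dvd.intro q rfl) S hS (nuOf φ)
    (fun σ w => nuOf_actW φ σ (hφ σ) w) P c ⟨c₂, hc₂⟩ h0
  have k1 : kap (0 : heckeAlgebra M1 2 S) = 0 := map_zero _
  rw [hP, k1, LinearMap.zero_apply, map_zero (Theta hm hD1), Theta_apply,
    nuOf_cl φ _ (hφP _ (hPD _)).1] at h1
  exact cl_eq_zero _ h1

/-- both norms of the Kummer element of `P(T) c` are `m`-th powers -/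
theorem norms_pow (hq : q.Prime) (h : Nat.Coprime q M1) (hm : m ≠ 0) (hD : Desc (M1 * q) m)
    (hD1 : Desc M1 m) (hE : ES1 (M1 * q) m) (hE1 : ES1 M1 m) (hSu : Surj M1 m) (S : Set ℕ)
    (hS : ∀ ℓ : ℕ, ℓ.Prime → ℓ ∣ M1 * q * m → ℓ ∈ S)
    (P : MvPolynomial ℕ ℤ) (hP : ev M1 S P = 0) (c : XN (M1 * q)) :
    (∃ h1 : FN M1, normAlpha M1 q (uK hD (kap (ev (M1 * q) S P) c)) = h1 ^ m) ∧
    (∃ h2 : FN M1, normAlpha M1 q (Wq h (uK hD (kap (ev (M1 * q) S P) c))) = h2 ^ m) := by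
  constructor
  · exact nuOf_Theta_eq_zero hm hD hD1 hE hE1 hSu S hS (normAlpha M1 q)
      (fun σ x => (gal_normAlpha M1 q σ x).symm) (fun u hu => PDiv.normAlpha hu) P hP c
  · exact nuOf_Theta_eq_zero hm hD hD1 hE hE1 hSu S hS
      ((normAlpha M1 q).comp ((Wq h : FN (M1 * q) →+* FN (M1 * q)) : FN (M1 * q) →* FN (M1 * q)))
      (fun σ x => by
        show normAlpha M1 q (Wq h (gal (M1 * q) σ x)) = gal M1 σ (normAlpha M1 q (Wq h x))
        rw [gal_normAlpha, gal_Wq hq h])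
      (fun u hu => PDiv.normAlpha (PDiv.Wq h hu)) P hP c

end Norms

end Fermat.Agent.S35
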