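import Fermat.Agent.S35.Tm
import Fermat.Agent.S18.KLAll

/-!
# S35 / TORII-DESC : descent of TOR(ii) from the level `lcm(M1, r) * q` to the level `M1 * q`

* `incl hle : FN N →ₐ[Kb] FN M` for `F_N ≤ F_M`; it commutes with `gal`, `α`, `β`, preserves `Cong`, `PDiv`.
* `Wq_incl` : `W_q` is compatible with the inclusion of levels (`induction_alpha_beta`).
* `torII_descent`.
* `mem_of_pow_pow_mem_lcm` : iteration of `S18.Descent.mem_of_pow_mem_lcm`.
* `torII_of_all_haupt` : TOR(ii) at all levels `M1` divisible by `r ∈ {2, 3}` implies TOR(ii) for `m = p ^ k`.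
-/

set_option autoImplicit false
set_option synthInstance.maxHeartbeats 400000

open HahnSeries ModularCurve AlgebraicCurve Fermat.Agent.S24 Fermat.Agent.S29 Fermat.Agent.S18
  Fermat.Agent.ES.Alg Fermat.Agent.S34.Mod

noncomputable section

namespace Fermat.Agent.S35

section Incl

variable {N M : ℕ}

/-- the inclusion of function fields -/
def incl (hle : modularFunctionFieldBar N ≤ modularFunctionFieldBar M) : FN N →ₐ[Kb] FN M :=
  IntermediateField.inclusion hle

theorem coe_incl (hle : modularFunctionFieldBar N ≤ modularFunctionFieldBar M) (x : FN N) :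
    ((incl hle x : FN M) : LaurentSeries Kb) = (x : LaurentSeries Kb) :=
  IntermediateField.coe_inclusion hle x

theorem incl_gal (hle : modularFunctionFieldBar N ≤ modularFunctionFieldBar M) (σ : GQ) (x : FN N) :
    gal M σ (incl hle x) = incl hle (gal N σ x) := by
  apply Subtype.ext
  rw [coe_arithmeticRingAut_apply, coe_incl, coe_incl, coe_arithmeticRingAut_apply]

theorem Cong.incl [NeZero N] [NeZero M] {A : ValuationSubring Kb}
    (hle : modularFunctionFieldBar N ≤ modularFunctionFieldBar M) {f : FN N} (h : Cong A N f) :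
    Cong A M (S35.incl hle f) := by
  obtain ⟨y1, y2, m1, m2, e, h12, h2⟩ := h
  exact ⟨y1, y2, hle m1, hle m2, e, h12, h2⟩

theorem PDiv.incl [NeZero N] [NeZero M]
    (hle : modularFunctionFieldBar N ≤ modularFunctionFieldBar M) {m : ℕ} {f : FN N}
    (h : PDiv Kb (FN N) m f) : PDiv Kb (FN M) m (S35.incl hle f) :=
  ⟨(map_ne_zero_iff _ (S35.incl hle).injective).mpr h.1,
    fun P => KLAllAux.dvd_ord_of_le hle f h.2 P⟩

end Incl

section Wq

variable {M1 M1' q : ℕ} [NeZero M1] [NeZero M1'] [NeZero q]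

theorem incl_alpha (hle1 : modularFunctionFieldBar M1 ≤ modularFunctionFieldBar M1')
    (hle : modularFunctionFieldBar (M1 * q) ≤ modularFunctionFieldBar (M1' * q)) (f : FN M1) :
    incl hle (heckeAlphaBar Kb M1 q f) = heckeAlphaBar Kb M1' q (incl hle1 f) := by
  apply Subtype.ext
  rw [coe_incl, coe_heckeAlphaBar, coe_heckeAlphaBar, coe_incl]

omit [NeZero M1] [NeZero M1'] in
theorem incl_beta (hle1 : modularFunctionFieldBar M1 ≤ modularFunctionFieldBar M1')
    (hle : modularFunctionFieldBar (M1 * q) ≤ modularFunctionFieldBar (M1' * q)) (f : FN M1) :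
    incl hle (heckeBetaBar Kb M1 q f) = heckeBetaBar Kb M1' q (incl hle1 f) := by
  apply Subtype.ext
  rw [coe_incl, coe_heckeBetaBar, coe_heckeBetaBar, coe_incl]

/-- `W_q` is compatible with the inclusion of levels -/
theorem Wq_incl (hq : q.Prime) (h : Nat.Coprime q M1) (h' : Nat.Coprime q M1')
    (hle1 : modularFunctionFieldBar M1 ≤ modularFunctionFieldBar M1')
    (hle : modularFunctionFieldBar (M1 * q) ≤ modularFunctionFieldBar (M1' * q))
    (x : FN (M1 * q)) : Wq h' (incl hle x) = incl hle (Wq h x) := by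
  refine induction_alpha_beta hq (P := fun x => Wq h' (incl hle x) = incl hle (Wq h x))
    (fun f => ?_) (fun f => ?_) (fun x y hx hy => ?_) (fun x y hx hy => ?_) (fun x hx => ?_) x
  · rw [incl_alpha hle1 hle, Wq_alpha, Wq_alpha, incl_beta hle1 hle]
  · rw [incl_beta hle1 hle, Wq_beta, Wq_beta, incl_alpha hle1 hle]
  · rw [map_add, map_add, map_add, map_add, hx, hy]
  · rw [map_mul, map_mul, map_mul, map_mul, hx, hy]
  · rw [map_inv₀, map_inv₀, map_inv₀, map_inv₀, hx]

/-- descent of TOR(ii) -/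
theorem torII_descent (hq : q.Prime) (h : Nat.Coprime q M1) (h' : Nat.Coprime q M1') {m : ℕ}
    (hle1 : modularFunctionFieldBar M1 ≤ modularFunctionFieldBar M1')
    (hle : modularFunctionFieldBar (M1 * q) ≤ modularFunctionFieldBar (M1' * q))
    (hdesc : ∀ g : LaurentSeries Kb, g ∈ modularFunctionFieldBar (M1' * q) →
      g ^ m ∈ modularFunctionFieldBar (M1 * q) → g ∈ modularFunctionFieldBar (M1 * q))
    (hT : TorII M1' q m h') : TorII M1 q m h := by
  intro A hA σ hσ u hu ⟨a, ha⟩ ⟨a₂, ha₂⟩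
  have c1 : Cong A (M1' * q) (algebraMap Kb (FN (M1' * q)) ((a : A) : Kb) * incl hle u) := by
    have := Cong.incl hle ha
    rwa [map_mul, AlgHom.commutes] at this
  have c2 : Cong A (M1' * q) (algebraMap Kb (FN (M1' * q)) ((a₂ : A) : Kb) *
      Wq h' (incl hle u)) := by
    have := Cong.incl hle ha₂
    rwa [map_mul, AlgHom.commutes, ← Wq_incl hq h h' hle1 hle] at this
  obtain ⟨g, hg⟩ := hT A hA σ hσ (incl hle u) (PDiv.incl hle hu) ⟨a, c1⟩ ⟨a₂, c2⟩
  have hu0 : (u : LaurentSeries Kb) ≠ 0 := fun h0 => hu.1 (Subtype.ext h0)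
  have hg' : (g : LaurentSeries Kb) ^ m =
      ((gal (M1 * q) (σ * σ) u * (u ^ (q ^ 2))⁻¹ : FN (M1 * q)) : LaurentSeries Kb) := by
    have h1 := congrArg (fun x : FN (M1' * q) => (x : LaurentSeries Kb)) hg
    simp only [incl_gal] at h1
    push_cast at h1
    rw [coe_incl, coe_incl] at h1
    push_cast
    rw [h1]
    field_simp
  have hgm : (g : LaurentSeries Kb) ∈ modularFunctionFieldBar (M1 * q) :=
    hdesc _ g.2 (by rw [hg']; exact Subtype.property _)
  refine ⟨⟨g, hgm⟩, Subtype.ext ?_⟩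
  push_cast
  rw [hg']
  push_cast
  field_simp

end Wq

/-- iteration of `S18.Descent.mem_of_pow_mem_lcm` -/
theorem mem_of_pow_pow_mem_lcm {N r : ℕ} [NeZero N] (hr : r.Prime) {p : ℕ} (hp : p.Prime)
    (hpr : ¬ p ∣ r + 1) (k : ℕ) : ∀ u : LaurentSeries Kb,
      u ∈ modularFunctionFieldBar (Nat.lcm N r) → u ^ (p ^ k) ∈ modularFunctionFieldBar N →
      u ∈ modularFunctionFieldBar N := by
  induction k with
  | zero =>
    intro u _ h
    simpa using h
  | succ k ih =>
    intro u hu h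
    apply ih u hu
    apply Descent.mem_of_pow_mem_lcm hr hp hpr (pow_mem hu _)
    rw [← pow_mul, ← pow_succ]
    exact h

theorem lcm_mul_of_ne {M1 q r : ℕ} (hq : q.Prime) (hr : r.Prime) (hrq : r ≠ q) :
    Nat.lcm (M1 * q) r = Nat.lcm M1 r * q := by
  have hcop : Nat.Coprime q r := (Nat.coprime_primes hq hr).mpr (Ne.symm hrq)
  by_cases h : r ∣ M1
  · rw [Nat.lcm_eq_left h, Nat.lcm_eq_left (Dvd.dvd.mul_right h q)]
  · have h1 : Nat.Coprime M1 r := ((Nat.Prime.coprime_iff_not_dvd hr).mpr h).symm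
    rw [h1.lcm_eq_mul, (Nat.Coprime.mul_left h1 hcop).lcm_eq_mul]
    ring

/-- TOR(ii) for `m = p ^ k` from TOR(ii) at the levels divisible by `r ∈ {2, 3}` -/
theorem torII_of_all_haupt
    (H : ∀ (M1 q r m : ℕ) [NeZero M1] [NeZero q], (r = 2 ∨ r = 3) → r ∣ M1 → q.Prime →
      ∀ h : Nat.Coprime q M1, ¬ q ∣ m → m ≠ 0 → TorII M1 q m h)
    (M1 q p k : ℕ) [NeZero M1] [NeZero q] (hq : q.Prime) (h : Nat.Coprime q M1)
    (hp : p.Prime) (hpq : p ≠ q) : TorII M1 q (p ^ k) h := by
  obtain ⟨r, hr, hrq, hpr⟩ := KLAllAux.exists_aux hpq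
  have hrp : r.Prime := by rcases hr with rfl | rfl <;> norm_num
  have : NeZero (Nat.lcm M1 r) := ⟨Nat.lcm_ne_zero (NeZero.ne M1) hrp.ne_zero⟩
  have h' : Nat.Coprime q (Nat.lcm M1 r) := by
    rw [Nat.Prime.coprime_iff_not_dvd hq]
    intro hd
    rcases (hq.dvd_mul).mp (hd.trans (Nat.lcm_dvd_mul M1 r)) with h1 | h1
    · exact (Nat.Prime.coprime_iff_not_dvd hq).mp h h1
    · exact hrq ((Nat.prime_dvd_prime_iff_eq hq hrp).mp h1).symm
  have hqm : ¬ q ∣ p ^ k := fun hd =>
    hpq ((Nat.prime_dvd_prime_iff_eq hq hp).mp (hq.dvd_of_dvd_pow hd)).symm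
  refine torII_descent hq h h' (Descent.bar_le (Nat.dvd_lcm_left M1 r))
    (Descent.bar_le (Nat.mul_dvd_mul_right (Nat.dvd_lcm_left M1 r) q)) ?_
    (H (Nat.lcm M1 r) q r (p ^ k) hr (Nat.dvd_lcm_right M1 r) hq h' hqm
      (pow_ne_zero _ hp.ne_zero))
  intro g hg hgm
  rw [← lcm_mul_of_ne hq hrp hrq] at hg
  exact mem_of_pow_pow_mem_lcm hrp hp (hpr hp) k g hg hgm

end Fermat.Agent.S35
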