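import Fermat.Agent.S35.Rd
import Fermat.Agent.S34.Mod.Res

/-!
# S35/ES5, part UNIT : Gauss norm one, unit constants

* `conj_div_mem` : for `σ` in the decomposition group of `A` and `c ≠ 0`, `σ c / c ∈ A` (so it is a unit of `A`):
  `σ ^ n c = c` for some `n > 0`; if `y = σ c / c` were not in `A`, then `y⁻¹` is a non-unit, and so is
  `∏_{i < n} σ ^ i (y⁻¹) = c / σ ^ n c = 1`.
* `Rn A s` : `s` has Gauss norm one (`Rd A s ρ` with `ρ ≠ 0`).
* `rn_conj_div` : `σ s / s` has Gauss norm one.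
* `rd_iff_resInf` : bridge to helper4's `Vinf`, `resInf`.
* `exists_unit_cong` : Gauss norm one + constant reduction up to a constant `⟹` congruent to a unit of `A`.
-/

set_option autoImplicit false
set_option synthInstance.maxHeartbeats 400000

open HahnSeries ModularCurve AlgebraicCurve Fermat.Agent.S24 Fermat.Agent.S29 Fermat.Agent.S18
  Fermat.Agent.ES.Alg Fermat.Agent.S34.Mod

noncomputable section

namespace Fermat.Agent.S35

variable {A : ValuationSubring Kb}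

theorem mem_nonunits_iff_inv_not_mem {x : Kb} (hx : x ≠ 0) : x ∈ A.nonunits ↔ x⁻¹ ∉ A := by
  rw [ValuationSubring.mem_nonunits_iff, ← ValuationSubring.valuation_le_one_iff, map_inv₀, not_le,
    one_lt_inv₀ (zero_lt_iff.mpr ((map_ne_zero _).mpr hx))]

theorem conj_mem_nonunits {σ : GQ} (hσ : σ ∈ A.decompositionSubgroup ℚ) {x : Kb}
    (hx : x ∈ A.nonunits) : σ x ∈ A.nonunits := by
  by_cases h0 : x = 0
  · rw [h0, map_zero]
    rw [h0] at hx
    exact hx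
  · rw [mem_nonunits_iff_inv_not_mem ((map_ne_zero _).mpr h0)]
    rw [mem_nonunits_iff_inv_not_mem h0] at hx
    intro h
    apply hx
    have h1 := map_mem_of_decomp (inv_mem hσ) h
    rwa [← map_inv₀, show (σ⁻¹ : GQ) (σ x⁻¹) = x⁻¹ from σ.symm_apply_apply _] at h1

theorem exists_pow_fix (σ : GQ) (c : Kb) : ∃ n : ℕ, 0 < n ∧ (σ ^ n) c = c := by
  have hfin : ((minpoly ℚ c).rootSet Kb).Finite := Polynomial.rootSet_finite _ _
  have hc : IsIntegral ℚ c := (AlgebraicClosure.isAlgebraic ℚ).isAlgebraic c |>.isIntegral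
  have hmem : ∀ i : ℕ, (σ ^ i) c ∈ (minpoly ℚ c).rootSet Kb := by
    intro i
    rw [Polynomial.mem_rootSet]
    refine ⟨minpoly.ne_zero hc, ?_⟩
    have := Polynomial.aeval_algHom_apply ((σ ^ i : GQ) : Kb →ₐ[ℚ] Kb) c (minpoly ℚ c)
    rw [minpoly.aeval, map_zero] at this
    exact this
  have := hfin.to_subtype
  obtain ⟨i, j, hij, h⟩ := Finite.exists_ne_map_eq_of_infinite
    (fun i : ℕ => (⟨(σ ^ i) c, hmem i⟩ : (minpoly ℚ c).rootSet Kb))
  have h' : (σ ^ i) c = (σ ^ j) c := congrArg Subtype.val h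
  wlog hlt : i < j generalizing i j
  · exact this j i hij.symm h.symm h'.symm (lt_of_le_of_ne (not_lt.mp hlt) hij.symm)
  refine ⟨j - i, Nat.sub_pos_of_lt hlt, ?_⟩
  apply (σ ^ i).injective
  rw [h', ← AlgEquiv.mul_apply, ← _root_.pow_add, Nat.add_sub_cancel' hlt.le]

/-- elements of the decomposition group preserve the valuation -/
theorem conj_div_mem {σ : GQ} (hσ : σ ∈ A.decompositionSubgroup ℚ) {c : Kb} (hc : c ≠ 0) :
    σ c / c ∈ A := by
  by_contra hcon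
  have hσc : σ c ≠ 0 := (map_ne_zero _).mpr hc
  have hy : c / σ c ∈ A.nonunits := by
    rw [mem_nonunits_iff_inv_not_mem (div_ne_zero hc hσc), inv_div]
    exact hcon
  have key : ∀ n : ℕ, c / (σ ^ (n + 1)) c ∈ A.nonunits := by
    intro n
    induction n with
    | zero => simpa using hy
    | succ n ih =>
      have h1 := conj_mem_nonunits hσ ih
      have h2 : c / (σ ^ (n + 1 + 1)) c = σ (c / (σ ^ (n + 1)) c) * (c / σ c) := by
        have h3 : (σ ^ (n + 1 + 1)) c = σ ((σ ^ (n + 1)) c) := by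
          rw [pow_succ' σ (n + 1)]; rfl
        have h4 : σ ((σ ^ (n + 1)) c) ≠ 0 := (map_ne_zero _).mpr ((map_ne_zero _).mpr hc)
        rw [h3, map_div₀]
        field_simp
      rw [h2]
      exact A.nonunits.mul_mem h1 hy
  obtain ⟨n, hn, hfix⟩ := exists_pow_fix σ c
  obtain ⟨k, rfl⟩ := Nat.exists_eq_succ_of_ne_zero hn.ne'
  have h1 := key k
  rw [Nat.succ_eq_add_one] at hfix
  rw [hfix, div_self hc, ValuationSubring.mem_nonunits_iff, map_one] at h1
  exact lt_irrefl _ h1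

theorem exists_unit_conj_div {σ : GQ} (hσ : σ ∈ A.decompositionSubgroup ℚ) {c : Kb} (hc : c ≠ 0) :
    ∃ a : Aˣ, ((a : A) : Kb) = c / σ c := by
  have hσc : σ c ≠ 0 := (map_ne_zero _).mpr hc
  have h1 : σ c / c ∈ A := conj_div_mem hσ hc
  have h2 : c / σ c ∈ A := by
    have := conj_div_mem (inv_mem hσ) hσc
    rwa [show (σ⁻¹ : GQ) (σ c) = c from σ.symm_apply_apply _] at this
  exact ⟨⟨⟨_, h2⟩, ⟨_, h1⟩, Subtype.ext (by show c / σ c * (σ c / c) = 1; field_simp),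
    Subtype.ext (by show σ c / c * (c / σ c) = 1; field_simp)⟩, rfl⟩

variable (A) in
/-- Gauss norm one -/
def Rn (s : LaurentSeries Kb) : Prop := ∃ ρ : LaurentSeries (kA A), ρ ≠ 0 ∧ Rd A s ρ

theorem Rn.mul {s s' : LaurentSeries Kb} (h : Rn A s) (h' : Rn A s') : Rn A (s * s') := by
  obtain ⟨ρ, hρ, hd⟩ := h
  obtain ⟨ρ', hρ', hd'⟩ := h'
  exact ⟨_, mul_ne_zero hρ hρ', hd.mul hd'⟩

theorem Rn.inv {s : LaurentSeries Kb} (h : Rn A s) : Rn A s⁻¹ := by
  obtain ⟨ρ, hρ, hd⟩ := h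
  exact ⟨_, inv_ne_zero hρ, hd.inv hρ⟩

theorem Rn.pow {s : LaurentSeries Kb} (h : Rn A s) (n : ℕ) : Rn A (s ^ n) := by
  obtain ⟨ρ, hρ, hd⟩ := h
  exact ⟨_, pow_ne_zero n hρ, hd.pow n⟩

theorem residue_unit_ne_zero (a : Aˣ) : IsLocalRing.residue A (a : A) ≠ 0 :=
  (IsLocalRing.residue_ne_zero_iff_isUnit _).mpr a.isUnit

/-- `σ s / s` has Gauss norm one -/
theorem rn_conj_div {σ : GQ} (hσ : σ ∈ A.decompositionSubgroup ℚ) {s : LaurentSeries Kb}
    {a : LaurentSeries (kA A)} (h : Rp A s a) : Rn A (coeffMap (σ : Kb →+* Kb) s * s⁻¹) := by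
  obtain ⟨ha, c, hc, hd⟩ := id h
  have hs : s ≠ 0 := h.ne_zero
  obtain ⟨φ, hφ⟩ := exists_residueMap hσ
  obtain ⟨e, he⟩ := exists_unit_conj_div hσ hc
  have hσc : σ c ≠ 0 := (map_ne_zero _).mpr hc
  have h1 := ((Rd.const (e : A)).mul ((hd.conj hσ φ hφ).mul (hd.inv ha)))
  refine ⟨_, mul_ne_zero (ck_ne_zero (residue_unit_ne_zero e))
    (mul_ne_zero (coeffMap_ne_zero φ φ.injective ha) (inv_ne_zero ha)), ?_⟩
  have e1 : cK ((e : A) : Kb) * (coeffMap (σ : Kb →+* Kb) (cK c * s) * (cK c * s)⁻¹) =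
      coeffMap (σ : Kb →+* Kb) s * s⁻¹ := by
    have e2 : coeffMap (σ : Kb →+* Kb) (cK c) = cK (σ c) := coeffMap_algebraMap _ _
    have n1 : cK c ≠ 0 := cK_ne_zero hc
    have n2 : cK (σ c) ≠ 0 := cK_ne_zero hσc
    rw [he, map_mul, e2, cK_div]
    field_simp
  rwa [e1] at h1

section FN

variable {N : ℕ} [NeZero N]

omit [NeZero N] in
/-- bridge to `Vinf`, `resInf` -/
theorem rd_iff_resInf (x : FN N) (r : LaurentSeries (kA A)) :
    Rd A (x : LaurentSeries Kb) r ↔ ∃ h : x ∈ Vinf A N, resInf A N ⟨x, h⟩ = r := by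
  constructor
  · rintro ⟨y1, y2, h2, h, hr⟩
    have hq : IsQuo A N x y1 y2 := ⟨h, h2⟩
    refine ⟨⟨_, _, hq⟩, ?_⟩
    rw [resInf_eq (x := ⟨x, _, _, hq⟩) hq, ← hr, mul_div_cancel_right₀ _ h2]
  · rintro ⟨⟨y1, y2, hq⟩, rfl⟩
    refine ⟨y1, y2, hq.2, hq.1, ?_⟩
    rw [resInf_eq (x := ⟨x, _, _, hq⟩) hq, div_mul_cancel₀ _ hq.2]

theorem cong_iff_rd (f : FN N) : Cong A N f ↔ Rd A (f : LaurentSeries Kb) 1 := by
  rw [cong_iff, rd_iff_resInf]

/-- Gauss norm one and constant reduction up to a constant: congruent to a unit of `A` -/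
theorem exists_unit_cong {f : FN N} (h1 : Rp A (f : LaurentSeries Kb) 1)
    (h2 : Rn A (f : LaurentSeries Kb)) :
    ∃ a : Aˣ, Cong A N (algebraMap Kb (FN N) ((a : A) : Kb) * f) := by
  obtain ⟨ρ, hρ, hd⟩ := h2
  obtain ⟨e, he, hρe⟩ := h1.unique (hd.rp hρ)
  obtain ⟨a0, ha0⟩ := IsLocalRing.residue_surjective (R := A) e⁻¹
  have hu : IsUnit a0 := by
    rw [← IsLocalRing.residue_ne_zero_iff_isUnit, ha0]
    exact inv_ne_zero he
  obtain ⟨a, rfl⟩ := hu
  refine ⟨a, ?_⟩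
  rw [cong_iff_rd]
  have h3 := (Rd.const (a : A)).mul hd
  rw [ha0, hρe, mul_one, ← map_mul, inv_mul_cancel₀ he, map_one] at h3
  push_cast
  exact h3

end FN

end Fermat.Agent.S35
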