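import Fermat.Agent.S35.NormRed
import Fermat.Agent.S35.Idem
import Fermat.Agent.S29.ESRel

/-!
# S35/ES5, parts E5, E6 : elements both of whose norms are `m`-th powers

`M = M1 q`, `A ∣ q`, `σ` a Frobenius lift at `A`, `τ = σ²`, `W = W_q`, `k = kA A`, `Fr` = Frobenius on coefficients,
`V` = `q ↦ q ^ q` (`qExpand k q`).

## E5 `rp_sq`
`u ≠ 0`, `N_α u = h₁ ^ m`, `N_α (W u) = h₂ ^ m`.  Let `a = red u`, `b = red (W u)`, `ηᵢ = red hᵢ` (up to constants;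
`exists_rp`).  `rp_normAlpha` + `Rp.unique` : `a * Fr b = ε₁ η₁ ^ m`, `b * Fr a = ε₂ η₂ ^ m` (`W W u = u`).  Apply `Fr` to the
second one and divide: `Fr (Fr a) / a = (Fr ε₂ / ε₁) (Fr η₂ / η₁) ^ m`.  As `red (τ u) = Fr (Fr a)` (`Rp.frob` twice),
`τ u / u * (h₁ / σ h₂) ^ m` has constant reduction.

## IDEM, COMMON : see `S35/Idem.lean`

## E6 `frob_sq_of_norms`
`x = τ u / u`, `f = h₁ / σ h₂`, `f₂ = h₂ / σ h₁`, `w` from `exists_common`; `z = x w ^ m` has constant reduction, and so has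
`W z`; `TorII` gives `τ z = z ^ (q ^ 2) g ^ m`.
-/

set_option autoImplicit false
set_option synthInstance.maxHeartbeats 400000

open HahnSeries ModularCurve AlgebraicCurve Fermat.Agent.S24 Fermat.Agent.S29 Fermat.Agent.S18
  Fermat.Agent.ES.Alg Fermat.Agent.S34.Mod

noncomputable section

namespace Fermat.Agent.S35

variable {M1 q : ℕ} [NeZero M1] [NeZero q]

/-- TOR(ii) (helper4 / helper22): the square of a Frobenius lift acts as `q ^ 2` on the toric part.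
`u` is a unit on both components, congruent to constants (units of `A`). -/
def TorII (M1 q m : ℕ) [NeZero M1] [NeZero q] (h : Nat.Coprime q M1) : Prop :=
  ∀ A : ValuationSubring Kb, A.LiesOverPrime q → ∀ σ : GQ, A.IsFrobeniusAt σ q →
    ∀ u : FN (M1 * q), PDiv Kb (FN (M1 * q)) m u →
      (∃ a : Aˣ, Cong A (M1 * q) (algebraMap Kb (FN (M1 * q)) ((a : A) : Kb) * u)) →
      (∃ a : Aˣ, Cong A (M1 * q) (algebraMap Kb (FN (M1 * q)) ((a : A) : Kb) * Wq h u)) →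
      ∃ g : FN (M1 * q), gal (M1 * q) (σ * σ) u = u ^ (q ^ 2) * g ^ m

variable {A : ValuationSubring Kb}

theorem coe_gal_mul {N : ℕ} (σ τ : GQ) (x : FN N) :
    (gal N (σ * τ) x : LaurentSeries Kb) =
      coeffMap (σ : Kb →+* Kb) (coeffMap (τ : Kb →+* Kb) (x : LaurentSeries Kb)) := by
  rw [coe_arithmeticRingAut_apply, coeffMap_coeffMap]
  rfl

/-- the field computation behind `rp_sq` -/
theorem rp_sq_aux {F : Type*} [Field F] (Fr : F →+* F) {a b η1 η2 c1 c2 : F} {m : ℕ}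
    (ha : a ≠ 0) (hb : b ≠ 0) (hc2 : c2 ≠ 0)
    (E1 : η1 ^ m = c1 * (a * Fr b)) (E2 : η2 ^ m = c2 * (b * Fr a)) :
    Fr (Fr a) * a⁻¹ * (η1 * (Fr η2)⁻¹) ^ m = c1 * (Fr c2)⁻¹ := by
  have h1 : Fr b ≠ 0 := (map_ne_zero Fr).mpr hb
  have h2 : Fr (Fr a) ≠ 0 := (map_ne_zero Fr).mpr ((map_ne_zero Fr).mpr ha)
  have h3 : Fr c2 ≠ 0 := (map_ne_zero Fr).mpr hc2
  have E3 : (Fr η2) ^ m = Fr c2 * (Fr b * Fr (Fr a)) := by
    rw [← map_pow, E2, map_mul, map_mul]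
  rw [mul_pow, inv_pow, E1, E3]
  field_simp

/-- [S35/E5] -/
theorem rp_sq (hq : q.Prime) (h : Nat.Coprime q M1) (hA : A.LiesOverPrime q) {σ : GQ}
    (hσ : A.IsFrobeniusAt σ q) {m : ℕ} (hm : m ≠ 0) (u : FN (M1 * q)) (hu : u ≠ 0) (h1 h2 : FN M1)
    (e1 : normAlpha M1 q u = h1 ^ m) (e2 : normAlpha M1 q (Wq h u) = h2 ^ m) :
    Rp A ((gal (M1 * q) (σ * σ) u * u⁻¹ *
      (heckeAlphaBar Kb M1 q (h1 * (gal M1 σ h2)⁻¹)) ^ m : FN (M1 * q)) : LaurentSeries Kb) 1 := by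
  have : Fact q.Prime := ⟨hq⟩
  have : CharP (kA A) q := charP_kA hq hA
  have hWu0 : Wq h u ≠ 0 := (map_ne_zero_iff _ (Wq h).injective).mpr hu
  have hN1 : normAlpha M1 q u ≠ 0 := ((IsUnit.mk0 u hu).map (normAlpha M1 q)).ne_zero
  have hN2 : normAlpha M1 q (Wq h u) ≠ 0 := ((IsUnit.mk0 _ hWu0).map (normAlpha M1 q)).ne_zero
  have h10 : h1 ≠ 0 := by
    rintro rfl
    rw [zero_pow hm] at e1
    exact hN1 e1
  have h20 : h2 ≠ 0 := by
    rintro rfl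
    rw [zero_pow hm] at e2
    exact hN2 e2
  obtain ⟨a, ha⟩ := exists_rp A u hu
  obtain ⟨b, hb⟩ := exists_rp A (Wq h u) hWu0
  obtain ⟨η1, hη1⟩ := exists_rp A h1 h10
  obtain ⟨η2, hη2⟩ := exists_rp A h2 h20
  have n1 := rp_normAlpha h u ha hb
  have n2 := rp_normAlpha h (Wq h u) hb (by rw [Wq_Wq]; exact ha)
  rw [e1] at n1
  rw [e2] at n2
  have p1 : Rp A ((h1 ^ m : FN M1) : LaurentSeries Kb) (η1 ^ m) := by
    push_cast; exact hη1.pow m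
  have p2 : Rp A ((h2 ^ m : FN M1) : LaurentSeries Kb) (η2 ^ m) := by
    push_cast; exact hη2.pow m
  obtain ⟨ε1, hε1, E1⟩ := n1.unique p1
  obtain ⟨ε2, hε2, E2⟩ := n2.unique p2
  have r1 : Rp A (gal (M1 * q) (σ * σ) u : LaurentSeries Kb)
      (coeffMap (frobenius (kA A) q) (coeffMap (frobenius (kA A) q) a)) := by
    rw [coe_gal_mul]
    exact (ha.frob hσ).frob hσ
  have r2 : Rp A ((heckeAlphaBar Kb M1 q (h1 * (gal M1 σ h2)⁻¹) : FN (M1 * q)) : LaurentSeries Kb)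
      (η1 * (coeffMap (frobenius (kA A) q) η2)⁻¹) := by
    rw [coe_heckeAlphaBar]
    push_cast
    exact hη1.mul (hη2.frob hσ).inv
  have r := (r1.mul ha.inv).mul (r2.pow m)
  have hck : ck A ε2 ≠ 0 := (map_ne_zero _).mpr hε2
  rw [rp_sq_aux (coeffMap (frobenius (kA A) q)) ha.1 hb.1 hck E1 E2, coeffMap_algebraMap] at r
  have hfe : frobenius (kA A) q ε2 ≠ 0 := (map_ne_zero _).mpr hε2
  have r' := r.mul_const (e := ε1⁻¹ * frobenius (kA A) q ε2) (mul_ne_zero (inv_ne_zero hε1) hfe)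
  have e : ck A (ε1⁻¹ * frobenius (kA A) q ε2) * (ck A ε1 * (ck A (frobenius (kA A) q ε2))⁻¹) = 1 := by
    rw [← map_inv₀, ← map_mul, ← map_mul, ← map_one (algebraMap (kA A) (LaurentSeries (kA A)))]
    congr 1
    field_simp
  rw [e] at r'
  push_cast
  exact r'

/-- [S35/E6] -/
theorem frob_sq_of_norms (hq : q.Prime) (h : Nat.Coprime q M1) {m : ℕ} (hm : m ≠ 0)
    (hT : TorII M1 q m h) (hA : A.LiesOverPrime q) {σ : GQ} (hσ : A.IsFrobeniusAt σ q)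
    (u : FN (M1 * q)) (hu : PDiv Kb (FN (M1 * q)) m u) (h1 h2 : FN M1)
    (e1 : normAlpha M1 q u = h1 ^ m) (e2 : normAlpha M1 q (Wq h u) = h2 ^ m) :
    ∃ g : FN (M1 * q), gal (M1 * q) (σ * σ) (gal (M1 * q) (σ * σ) u) * u ^ (q ^ 2) =
      (gal (M1 * q) (σ * σ) u) ^ (q ^ 2 + 1) * g ^ m := by
  have hu0 : u ≠ 0 := hu.1
  have hWu0 : Wq h u ≠ 0 := (map_ne_zero_iff _ (Wq h).injective).mpr hu0
  have hN1 : normAlpha M1 q u ≠ 0 := ((IsUnit.mk0 u hu0).map (normAlpha M1 q)).ne_zero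
  have hN2 : normAlpha M1 q (Wq h u) ≠ 0 := ((IsUnit.mk0 _ hWu0).map (normAlpha M1 q)).ne_zero
  have h10 : h1 ≠ 0 := by
    rintro rfl
    rw [zero_pow hm] at e1
    exact hN1 e1
  have h20 : h2 ≠ 0 := by
    rintro rfl
    rw [zero_pow hm] at e2
    exact hN2 e2
  have hs1 : gal M1 σ h1 ≠ 0 := (map_ne_zero_iff _ (gal M1 σ).injective).mpr h10
  have hs2 : gal M1 σ h2 ≠ 0 := (map_ne_zero_iff _ (gal M1 σ).injective).mpr h20
  obtain ⟨w, hw0, hw1, hw2, hw3, hw4⟩ := exists_common (A := A) hq h hA (h1 * (gal M1 σ h2)⁻¹)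
    (h2 * (gal M1 σ h1)⁻¹) (mul_ne_zero h10 (inv_ne_zero hs2)) (mul_ne_zero h20 (inv_ne_zero hs1))
  have R1 := rp_sq hq h hA hσ hm u hu0 h1 h2 e1 e2
  have R2 := rp_sq hq h hA hσ hm (Wq h u) hWu0 h2 h1 e2 (by rw [Wq_Wq]; exact e1)
  set f := heckeAlphaBar Kb M1 q (h1 * (gal M1 σ h2)⁻¹) with hf
  set f₂ := heckeAlphaBar Kb M1 q (h2 * (gal M1 σ h1)⁻¹) with hf₂
  have hf0 : f ≠ 0 := (map_ne_zero_iff _ (heckeAlphaBar Kb M1 q).injective).mpr
    (mul_ne_zero h10 (inv_ne_zero hs2))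
  have hf₂0 : f₂ ≠ 0 := (map_ne_zero_iff _ (heckeAlphaBar Kb M1 q).injective).mpr
    (mul_ne_zero h20 (inv_ne_zero hs1))
  set τ := σ * σ with hτ
  have hz1 : Rp A ((gal (M1 * q) τ u * u⁻¹ * w ^ m : FN (M1 * q)) : LaurentSeries Kb) 1 := by
    have e : gal (M1 * q) τ u * u⁻¹ * w ^ m = (gal (M1 * q) τ u * u⁻¹ * f ^ m) * (w * f⁻¹) ^ m := by
      rw [mul_pow, inv_pow]
      field_simp
    have := R1.mul (hw1.pow m)
    rw [one_pow, one_mul] at this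
    rw [e]
    push_cast
    push_cast at this
    exact this
  have hz2 : Rp A ((Wq h (gal (M1 * q) τ u * u⁻¹ * w ^ m) : FN (M1 * q)) : LaurentSeries Kb) 1 := by
    have e : Wq h (gal (M1 * q) τ u * u⁻¹ * w ^ m) =
        (gal (M1 * q) τ (Wq h u) * (Wq h u)⁻¹ * f₂ ^ m) * (Wq h w * f₂⁻¹) ^ m := by
      rw [map_mul, map_mul, map_inv₀, map_pow, gal_Wq hq h, mul_pow, inv_pow]
      field_simp
    have := R2.mul (hw2.pow m)
    rw [one_pow, one_mul] at this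
    rw [e]
    push_cast
    push_cast at this
    exact this
  have hzP : PDiv Kb (FN (M1 * q)) m (gal (M1 * q) τ u * u⁻¹ * w ^ m) :=
    ((PDiv.gal hu τ).mul hu.inv).mul (PDiv.pow_self hw0)
  have hτd : τ ∈ A.decompositionSubgroup ℚ :=
    mul_mem hσ.mem_decompositionSubgroup hσ.mem_decompositionSubgroup
  have hn1 : Rn A ((gal (M1 * q) τ u * u⁻¹ * w ^ m : FN (M1 * q)) : LaurentSeries Kb) := by
    obtain ⟨a, ha⟩ := exists_rp A u hu0
    have := (rn_conj_div hτd ha).mul (hw3.pow m)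
    push_cast
    rw [coe_arithmeticRingAut_apply]
    exact this
  have hn2 : Rn A ((Wq h (gal (M1 * q) τ u * u⁻¹ * w ^ m) : FN (M1 * q)) : LaurentSeries Kb) := by
    obtain ⟨a, ha⟩ := exists_rp A (Wq h u) hWu0
    have := (rn_conj_div hτd ha).mul (hw4.pow m)
    rw [map_mul, map_mul, map_inv₀, map_pow, ← gal_Wq hq h]
    push_cast
    rw [coe_arithmeticRingAut_apply]
    exact this
  obtain ⟨g, hg⟩ := hT A hA σ hσ _ hzP (exists_unit_cong hz1 hn1) (exists_unit_cong hz2 hn2)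
  rw [map_mul, map_mul, map_inv₀, map_pow, ← hτ] at hg
  have hb : gal (M1 * q) τ u ≠ 0 := (map_ne_zero_iff _ (gal (M1 * q) τ).injective).mpr hu0
  have hc : gal (M1 * q) τ w ≠ 0 := (map_ne_zero_iff _ (gal (M1 * q) τ).injective).mpr hw0
  refine ⟨w ^ (q ^ 2) * g * (gal (M1 * q) τ w)⁻¹, ?_⟩
  have e : gal (M1 * q) τ (gal (M1 * q) τ u) =
      (gal (M1 * q) τ u * u⁻¹ * w ^ m) ^ (q ^ 2) * g ^ m * gal (M1 * q) τ u *
        ((gal (M1 * q) τ w) ^ m)⁻¹ := by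
    rw [← hg]
    field_simp
  rw [e, mul_pow, mul_pow, inv_pow, mul_pow, mul_pow, inv_pow]
  field_simp
  ring

end Fermat.Agent.S35
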