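import Fermat.Agent.S35.Nu
import Fermat.Agent.S35.Tm

/-!
# S35/ES5 : the raw clause `(σ² - q²)(σ² - 1) P(T) = 0`

`M = M1 * q`, `q ∤ M1` prime, `A ∣ q`, `σ` a Frobenius lift at `A`, `s = actW (σ * σ)`.  For `P ∈ ℤ[X_ℓ]` with `P(T) = 0` at level
`M1`, every `c ∈ XN M` and `g ∈ G_ℚ`, `w = g Θ(P(T) c)` satisfies `s (s w) + q² w = (q² + 1) s w`.

Inputs (hypotheses): `Desc`, `ES1` at both levels, `Surj M1 m` (S30/SURJ), `TorII M1 q m` (TOR(ii)).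
-/

set_option autoImplicit false

open ModularCurve AlgebraicCurve CongruenceSubgroup CuspForm
open Fermat.Agent.S24 Fermat.Agent.S29 Fermat.Agent.S31 Fermat.Agent.ES.Alg Fermat.Agent.S34.Mod

noncomputable section

namespace Fermat.Agent.S35

variable {M1 q m : ℕ} [NeZero M1] [NeZero q]

theorem es5_cl {N : ℕ} (hm : m ≠ 0) (n : ℕ) (τ : GQ) (u : FN N) (hu : u ≠ 0) (r : FN N)
    (hr : gal N τ (gal N τ u) * u ^ n = (gal N τ u) ^ (n + 1) * r ^ m) :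
    actW N m τ (actW N m τ (cl u hu)) + n • (cl u hu : WW N m) =
      (n + 1) • actW N m τ (cl u hu) := by
  rw [actW_cl, actW_cl, ← cl_pow, ← cl_pow, ← cl_mul]
  exact cl_eq_of_eq_mul hm _ _ hr

/-- the element-wise form -/
theorem es5_elt (hq : q.Prime) (h : Nat.Coprime q M1) (hm : m ≠ 0) (hD : Desc (M1 * q) m)
    (hD1 : Desc M1 m) (hE : ES1 (M1 * q) m) (hE1 : ES1 M1 m) (hSu : Surj M1 m)
    (hT : TorII M1 q m h) (S : Set ℕ) (hS : ∀ ℓ : ℕ, ℓ.Prime → ℓ ∣ M1 * q * m → ℓ ∈ S)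
    (P : MvPolynomial ℕ ℤ) (hP : ev M1 S P = 0) (A : ValuationSubring Qb) (hA : A.LiesOverPrime q)
    (σ : GQ) (hσ : A.IsFrobeniusAt σ q) (g : GQ) (c : XN (M1 * q)) :
    ∃ r : FN (M1 * q), gal (M1 * q) (σ * σ) (gal (M1 * q) (σ * σ)
        (gal (M1 * q) g (uK hD (kap (ev (M1 * q) S P) c)))) *
        (gal (M1 * q) g (uK hD (kap (ev (M1 * q) S P) c))) ^ (q ^ 2) =
      (gal (M1 * q) (σ * σ) (gal (M1 * q) g (uK hD (kap (ev (M1 * q) S P) c)))) ^ (q ^ 2 + 1) *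
        r ^ m := by
  obtain ⟨⟨h1, e1⟩, ⟨h2, e2⟩⟩ := norms_pow hq h hm hD hD1 hE hE1 hSu S hS P hP c
  have hP0 : PDiv Kb (FN (M1 * q)) m (uK hD (kap (ev (M1 * q) S P) c)) :=
    pdiv_of_isKummer (M1 * q) m _ (Subtype.property _) _ (isKummer_uK hD _)
  have e1' : normAlpha M1 q (gal (M1 * q) g (uK hD (kap (ev (M1 * q) S P) c))) =
      (gal M1 g h1) ^ m := by
    rw [← gal_normAlpha, e1, map_pow]
  have e2' : normAlpha M1 q (Wq h (gal (M1 * q) g (uK hD (kap (ev (M1 * q) S P) c)))) =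
      (gal M1 g h2) ^ m := by
    rw [← gal_Wq hq h, ← gal_normAlpha, e2, map_pow]
  exact frob_sq_of_norms hq h hm hT hA hσ _ (PDiv.gal hP0 g) _ _ e1' e2'

/-- **ES5**, raw form -/
theorem es5_raw (hq : q.Prime) (h : Nat.Coprime q M1) (hm : m ≠ 0) (hD : Desc (M1 * q) m)
    (hD1 : Desc M1 m) (hE : ES1 (M1 * q) m) (hE1 : ES1 M1 m) (hSu : Surj M1 m)
    (hT : TorII M1 q m h) (S : Set ℕ) (hS : ∀ ℓ : ℕ, ℓ.Prime → ℓ ∣ M1 * q * m → ℓ ∈ S)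
    (P : MvPolynomial ℕ ℤ) (hP : ev M1 S P = 0) (A : ValuationSubring Qb) (hA : A.LiesOverPrime q)
    (σ : GQ) (hσ : A.IsFrobeniusAt σ q) (g : GQ) (c : XN (M1 * q)) :
    ∀ w : WW (M1 * q) m, w = actW (M1 * q) m g (Theta hm hD (kap (ev (M1 * q) S P) c)) →
      actW (M1 * q) m (σ * σ) (actW (M1 * q) m (σ * σ) w) + (q ^ 2) • w =
        (q ^ 2 + 1) • actW (M1 * q) m (σ * σ) w := by
  intro w hw
  obtain ⟨r, hr⟩ := es5_elt hq h hm hD hD1 hE hE1 hSu hT S hS P hP A hA σ hσ g c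
  rw [hw, Theta_apply, actW_cl]
  exact es5_cl hm (q ^ 2) (σ * σ) _ _ r hr

end Fermat.Agent.S35
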