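import Fermat.Agent.S35.Raw
import Fermat.Agent.S35.ES5
import Fermat.Agent.S35.TorDesc
import Fermat.Agent.S34.Mod.Core
import Fermat.Agent.S31.ES
import Fermat.Agent.S30.Surj

/-!
# S35/ES : the Eichler–Shimura interface with the Frobenius relation at `q ‖ N`

`esInterfaceF_of_raw` with `X = S29.XN N`, `κ = S31.kap` (`S31/Lat.lean`), raw data `WW N (p ^ m)`, `actW`, `Theta` of
`S29/Wiring.lean`; the new clause is `es5_raw` (`S35/ES5.lean`).

TOR(ii) : `S34.Mod.tor_core` (helper4) + `S35/TorDesc.lean`.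
-/

set_option autoImplicit false

open Fermat.Agent.S24 Fermat.Agent.S29 Fermat.Agent.S31

namespace Fermat.Agent.S35

theorem surj_holds (N m : ℕ) [NeZero N] (hm : m ≠ 0) : Surj N m := fun u hu => by
  obtain ⟨c, hc⟩ := Fermat.Agent.S30.Surj.exists_isKummer_of_pdiv N m hm u hu
  exact ⟨c, c.2, hc⟩

/-- **TOR(ii)** at a level divisible by `r ∈ {2, 3}` : the square of a Frobenius lift at `q` acts as `q ^ 2` on the
toric part (`S34.Mod.tor_core` = `T.tor` with `Setup M1 q r A`, `nodalChart`, `actsLike_frobSq`, `Q = q ^ 2`) -/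
theorem torII_of_haupt (M1 q r m : ℕ) [NeZero M1] [NeZero q] (hr : r = 2 ∨ r = 3) (hr1 : r ∣ M1)
    (hq : q.Prime) (h : Nat.Coprime q M1) (hm : ¬ q ∣ m) (hm0 : m ≠ 0) : TorII M1 q m h := by
  intro A hA σ hσ u hu h1 h2
  have : NeZero r := ⟨by rcases hr with rfl | rfl <;> norm_num⟩
  have S : S34.Mod.Setup M1 q r A := ⟨hr, hr1, hq, h, hA⟩
  exact S34.Mod.tor_core S (Nat.pos_of_ne_zero hm0) hm
    (mul_mem hσ.mem_decompositionSubgroup hσ.mem_decompositionSubgroup)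
    (pow_pos hq.pos 2) (fun b => S34.Mod.actsLike_frobSq S hσ b) u hu h1 h2

/-- **TOR(ii)** -/
theorem torII_holds (M1 q p k : ℕ) [NeZero M1] [NeZero q] (hq : q.Prime) (h : Nat.Coprime q M1)
    (hp : p.Prime) (hpq : p ≠ q) : TorII M1 q (p ^ k) h :=
  torII_of_all_haupt (fun M1 q r m _ _ hr hr1 hq h hm hm0 => torII_of_haupt M1 q r m hr hr1 hq h hm hm0)
    M1 q p k hq h hp hpq

/-- the clause (ES5) at a level written as `N = M1 * q` -/
theorem es5_clause {N : ℕ} [NeZero N] (M1 q p k : ℕ) [NeZero M1] [NeZero q] (hN : N = M1 * q)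
    (hq : q.Prime) (hqM : ¬ q ∣ M1) (hp : p.Prime) (hpq : p ≠ q) (hm : p ^ k ≠ 0)
    (hD : Desc N (p ^ k)) (S : Set ℕ)
    (hS : ∀ ℓ : ℕ, ℓ.Prime → ℓ ∣ N * p ^ k → ℓ ∈ S)
    (P : MvPolynomial ℕ ℤ) (hP : ev M1 S P = 0) (A : ValuationSubring Qb) (hA : A.LiesOverPrime q)
    (σ : GQ) (hσ : A.IsFrobeniusAt σ q) (g : GQ) (c : XN N) :
    ∀ w : WW N (p ^ k), w = actW N (p ^ k) g (Theta hm hD (kap (ev N S P) c)) →
      actW N (p ^ k) σ (actW N (p ^ k) σ (actW N (p ^ k) σ (actW N (p ^ k) σ w))) + (q ^ 2) • w =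
        (q ^ 2 + 1) • actW N (p ^ k) σ (actW N (p ^ k) σ w) := by
  subst hN
  intro w hw
  have h : Nat.Coprime q M1 := (Nat.Prime.coprime_iff_not_dvd hq).mpr hqM
  have key := es5_raw hq h hm hD (S31.desc_holds M1 _ hm) (es1_of_KL _ _ (klAll _))
    (es1_of_KL _ _ (klAll _)) (surj_holds M1 _ hm) (torII_holds M1 q p k hq h hp hpq) S hS P hP A hA
    σ hσ g c w hw
  have e : ∀ x : WW (M1 * q) (p ^ k), actW (M1 * q) (p ^ k) (σ * σ) x =
      actW (M1 * q) (p ^ k) σ (actW (M1 * q) (p ^ k) σ x) := fun x => by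
    rw [map_mul]; rfl
  rw [e, e] at key
  exact key

theorem esInterfaceF {p : ℕ} {N : ℕ} [NeZero N] {S : Finset ℕ} (hp : p.Prime) (hpS : p ∈ S)
    (hNS : ∀ q : ℕ, q.Prime → q ∣ N → q ∈ S) : ESInterfaceF N (↑S : Set ℕ) p := by
  refine esInterfaceF_of_raw hp hNS (XN N) kap kap_injective (fun m => ?_)
  have hm : p ^ m ≠ 0 := pow_ne_zero _ hp.ne_zero
  have hD := S31.desc_holds N (p ^ m) hm
  have hnd : ∀ ℓ : ℕ, ℓ.Prime → ¬ ℓ ∣ N → ℓ ≠ p → ¬ ℓ ∣ N * p ^ m := by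
    intro ℓ hℓ hN hne hd
    rcases (Nat.Prime.dvd_mul hℓ).mp hd with h | h
    · exact hN h
    · exact hne ((Nat.prime_dvd_prime_iff_eq hℓ hp).mp (hℓ.dvd_of_dvd_pow h))
  refine ⟨WW N (p ^ m), inferInstance, actW N (p ^ m), Theta hm hD, nsmul_WW,
    fun c hc => Theta_ker hm hD c hc, fun c => Theta_level hm hD c, ?_, ?_⟩
  · intro ℓ hℓ hℓN hℓS A hA σ hσ g c
    have hℓp : ℓ ≠ p := fun h => hℓS (Finset.mem_coe.mpr (h ▸ hpS))
    rw [kap_T, ← TX_eq hℓ hℓN]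
    exact Theta_ES hm hD (k3_holds' N _) (es1_of_KL N _ (klAll N)) ℓ hℓ (hnd ℓ hℓ hℓN hℓp) A hA σ hσ
      g c
  · intro q N' _ hq hN hqN' hqp P hP A hA σ hσ g c
    have : NeZero q := ⟨hq.ne_zero⟩
    exact es5_clause N' q p m (hN.trans (mul_comm q N')) hq hqN' hp (Ne.symm hqp) hm hD (↑S : Set ℕ)
      (fun ℓ hℓ hd => by
        by_contra hnS
        have h1 : ¬ ℓ ∣ N := fun h => hnS (Finset.mem_coe.mpr (hNS ℓ hℓ h))
        have h2 : ℓ ≠ p := fun h => hnS (Finset.mem_coe.mpr (h ▸ hpS))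
        exact hnd ℓ hℓ h1 h2 hd) P hP A hA σ hσ g c _ rfl

end Fermat.Agent.S35
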