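import Fermat.Agent.S35.Defs

/-!
# S35/GLUE : the characteristic polynomial of Frobenius at `q ‖ N` (pure algebra)

`(σ² - q²)(σ² - 1) σ⁻² = Θ² - (q + 1)²`, `Θ = σ + q σ⁻¹ = a(z)`, `z = dk(T_ℓ, ℓ, b)`; so (ES5) and (ES3)
give `χ(P(T)) (tr ρ(σ)² - (q + 1)²) = 0`; `det ρ(σ) = q` as in S34.
-/

set_option autoImplicit false

open Polynomial

namespace Fermat.Agent.S35

open Fermat.Agent.S29 (Qb GQ)
open Fermat.Agent.S31 Fermat.Agent.S34

theorem frob_identity {E : Type*} [Ring E] (s s' Q : E) (h1 : s * s' = 1)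
    (hQ : Commute Q s) (hQ' : Commute Q s') (h2 : s' * s = 1) :
    (s * s - Q * Q) * (s * s - 1) * (s' * s') = (s + Q * s') * (s + Q * s') - (Q + 1) * (Q + 1) := by
  have e1 : (s * s - 1) * (s' * s') = 1 - s' * s' := by
    have : (s * s - 1) * (s' * s') = s * (s * s') * s' - s' * s' := by noncomm_ring
    rw [this, h1, mul_one, h1]
  have e2 : (s * s - Q * Q) * (1 - s' * s') = s * s - 1 - Q * Q + Q * Q * (s' * s') := by
    have : (s * s - Q * Q) * (1 - s' * s') =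
        s * s - s * (s * s') * s' - Q * Q + Q * Q * (s' * s') := by noncomm_ring
    rw [this, h1, mul_one, h1]
  have e3 : (s + Q * s') * (s + Q * s') = s * s + Q + Q + Q * Q * (s' * s') := by
    have : (s + Q * s') * (s + Q * s') =
        s * s + (s * Q) * s' + Q * (s' * s) + Q * (s' * Q) * s' := by noncomm_ring
    rw [this, ← hQ.eq, ← hQ'.eq, h2, mul_one, mul_assoc Q s s', h1, mul_one]
    noncomm_ring
  rw [mul_assoc, e1, e2, e3]
  noncomm_ring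

section

variable {p : ℕ} {N : ℕ} [NeZero N] {S : Finset ℕ} {R : Type} [CommRing R] [IsLocalRing R]

theorem trace_det_frob_sub_mem (hp : p.Prime)
    (hpR : (p : R) ∈ IsLocalRing.maximalIdeal R) (hpS : p ∈ S)
    (hNS : ∀ q : ℕ, q.Prime → q ∣ N → q ∈ S)
    (hES : ESInterfaceF N (↑S : Set ℕ) p)
    (χ : CuspForm.heckeAlgebra N 2 (↑S : Set ℕ) →+* R) (ρ : GaloisRepAdic R)
    (hρ : ∀ (ℓ : ℕ) (hℓ : ℓ.Prime) (hℓN : ¬ ℓ ∣ N) (hℓS : ℓ ∉ (↑S : Set ℕ)),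
      ∀ A : ValuationSubring Qb, A.LiesOverPrime ℓ → ∀ σ : GQ, A.IsFrobeniusAt σ ℓ →
        LinearMap.charpoly (ρ.ρ σ) =
          X ^ 2 - C (χ (CuspForm.heckeAlgebra.T hℓ hℓN hℓS)) * X + C ((ℓ : R)))
    (q N' : ℕ) [NeZero N'] (hq : q.Prime) (hN : N = q * N') (hqN' : ¬ q ∣ N') (hqp : q ≠ p)
    (P : MvPolynomial ℕ ℤ) (hP : ev N' (↑S : Set ℕ) P = 0)
    (B : ValuationSubring Qb) (hB : B.LiesOverPrime q)
    (σ : GQ) (hσ : B.IsFrobeniusAt σ q) (n : ℕ) :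
    χ (ev N (↑S : Set ℕ) P) * (ρ.trace σ ^ 2 - ((q : R) + 1) ^ 2) ∈ IsLocalRing.maximalIdeal R ^ n ∧
      LinearMap.det (ρ.ρ σ) - (q : R) ∈ IsLocalRing.maximalIdeal R ^ n := by
  obtain ⟨m, W, _, act, a, hnm, hkill, ⟨L', hL'fin, hL'⟩, ES1, ES5, ES3⟩ := hES n
  obtain ⟨Ln, hLnfin, hLn⟩ := ρ.isAdicContinuous n
  obtain ⟨ε, ⟨Lε, hLεfin, hLε⟩, hεfrob, -⟩ := exists_cyclo_pow hp m
  set L : IntermediateField ℚ Qb := Ln ⊔ L' ⊔ Lε with hLdef
  have hLfin : FiniteDimensional ℚ L := by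
    have : FiniteDimensional ℚ (Ln ⊔ L' : IntermediateField ℚ Qb) :=
      IntermediateField.finiteDimensional_sup Ln L'
    exact IntermediateField.finiteDimensional_sup (Ln ⊔ L') Lε
  have hLn_le : Ln ≤ L := le_sup_left.trans le_sup_left
  have hL'_le : L' ≤ L := le_sup_right.trans le_sup_left
  have hLε_le : Lε ≤ L := le_sup_right
  obtain ⟨ℓ, A, τ, b, hℓ, hℓS, hA, hτ, hb⟩ := exists_frob S L hLfin σ
  have hℓN : ¬ ℓ ∣ N := fun hd => hℓS (hNS ℓ hℓ hd)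
  have hℓS' : ℓ ∉ (↑S : Set ℕ) := fun hh => hℓS (Finset.mem_coe.mp hh)
  have hℓp : ℓ ≠ p := fun hh => hℓS (hh ▸ hpS)
  -- the cyclotomic character
  have hc : ((ℓ ^ b : ℕ) : ZMod (p ^ m)) = ((q : ℕ) : ZMod (p ^ m)) := by
    have e1 : ε σ = ε τ ^ b := by
      rw [← map_pow]
      exact eq_of_level ε Lε hLε σ (τ ^ b) (fun x hx => hb x (hLε_le hx))
    have e2 : ((ε σ : (ZMod (p ^ m))ˣ) : ZMod (p ^ m)) = ((ℓ ^ b : ℕ) : ZMod (p ^ m)) := by
      rw [e1, Units.val_pow_eq_pow_val, hεfrob ℓ hℓ hℓp A hA τ hτ, Nat.cast_pow]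
    rw [← e2, hεfrob q hq hqp B hB σ hσ]
  constructor
  · -- the trace
    set z := dk (CuspForm.heckeAlgebra.T hℓ hℓN hℓS') (ℓ : _) b with hz
    have hz1 : ρ.trace σ - χ z ∈ IsLocalRing.maximalIdeal R ^ n := by
      have e : ρ.trace (τ ^ b) = χ z := by
        unfold GaloisRepAdic.trace
        rw [map_pow, trace_pow_of_charpoly ρ.finrank_eq _ _ _ (hρ ℓ hℓ hℓN hℓS' A hA τ hτ), hz,
          map_dk, map_natCast]
      rw [← e]
      exact trace_sub_mem ρ n Ln hLn σ (τ ^ b) (fun x hx => hb x (hLn_le hx))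
    have hinv : act σ * act σ⁻¹ = 1 := by rw [← map_mul, mul_inv_cancel, map_one]
    have hinv' : act σ⁻¹ * act σ = 1 := by rw [← map_mul, inv_mul_cancel, map_one]
    have hz2 : a z = act σ + ((q : ℕ) : AddMonoid.End W) * act σ⁻¹ := by
      have e1 : act σ = act τ ^ b := by
        rw [← map_pow]
        exact eq_of_level act L' hL' σ (τ ^ b) (fun x hx => hb x (hL'_le hx))
      have e2 : act σ⁻¹ = act τ⁻¹ ^ b := by
        have e4 : act τ⁻¹ ^ b * act τ ^ b = 1 := by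
          rw [← map_pow, ← map_pow, ← map_mul, inv_pow, inv_mul_cancel, map_one]
        calc act σ⁻¹ = (act τ⁻¹ ^ b * act τ ^ b) * act σ⁻¹ := by rw [e4, one_mul]
          _ = act τ⁻¹ ^ b := by rw [← e1, mul_assoc, hinv, mul_one]
      rw [← natCast_end_eq (p ^ m) hkill _ _ hc, e1, e2]
      exact map_dk_of_quad a _ ℓ (act τ) (act τ⁻¹)
        (by rw [← map_mul, mul_inv_cancel, map_one]) (by rw [← map_mul, inv_mul_cancel, map_one])
        (ES1 ℓ hℓ hℓN hℓS' A hA τ hτ) b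
    have h5 := ES5 q N' hq hN hqN' hqp P hP B hB σ hσ
    have hzz : a (ev N (↑S : Set ℕ) P * (z * z - ((q : _) + 1) * ((q : _) + 1))) = 0 := by
      rw [map_mul, map_sub, map_mul, map_mul, map_add, map_natCast, map_one, hz2,
        ← frob_identity (act σ) (act σ⁻¹) ((q : ℕ) : AddMonoid.End W) hinv (Nat.cast_commute q _)
          (Nat.cast_commute q _) hinv', ← mul_assoc (a _), ← mul_assoc (a _)]
      have e : ((q : ℕ) : AddMonoid.End W) * ((q : ℕ) : AddMonoid.End W) =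
          ((q ^ 2 : ℕ) : AddMonoid.End W) := by rw [pow_two, Nat.cast_mul]
      rw [e, h5, zero_mul]
    obtain ⟨y, hy⟩ := ES3 _ hzz
    have hπ : χ (ev N (↑S : Set ℕ) P) * (χ z ^ 2 - ((q : R) + 1) ^ 2) ∈
        IsLocalRing.maximalIdeal R ^ n := by
      have : χ (ev N (↑S : Set ℕ) P) * (χ z ^ 2 - ((q : R) + 1) ^ 2) =
          χ (ev N (↑S : Set ℕ) P * (z * z - ((q : _) + 1) * ((q : _) + 1))) := by
        rw [map_mul, map_sub, map_mul, map_mul, map_add, map_natCast, map_one]; ring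
      rw [this, hy, map_nsmul, nsmul_eq_mul, Nat.cast_pow]
      exact Ideal.mul_mem_right _ _ (Ideal.pow_mem_pow hpR n)
    have : χ (ev N (↑S : Set ℕ) P) * (ρ.trace σ ^ 2 - ((q : R) + 1) ^ 2) =
        χ (ev N (↑S : Set ℕ) P) * (ρ.trace σ + χ z) * (ρ.trace σ - χ z) +
          χ (ev N (↑S : Set ℕ) P) * (χ z ^ 2 - ((q : R) + 1) ^ 2) := by ring
    rw [this]
    exact Ideal.add_mem _ (Ideal.mul_mem_left _ _ hz1) hπ
  · -- the determinant
    have h1 := det_sub_mem ρ n Ln hLn σ (τ ^ b) (fun x hx => hb x (hLn_le hx))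
    have h2 : LinearMap.det (ρ.ρ (τ ^ b)) = ((ℓ ^ b : ℕ) : R) := by
      rw [map_pow, map_pow, det_of_charpoly ρ.finrank_eq _ _ _
        (hρ ℓ hℓ hℓN hℓS' A hA τ hτ), Nat.cast_pow]
    have h3 : ((ℓ ^ b : ℕ) : R) - (q : R) ∈ IsLocalRing.maximalIdeal R ^ n := by
      have h4 : (ℓ ^ b) ≡ q [MOD p ^ m] := (ZMod.natCast_eq_natCast_iff _ _ _).mp hc
      have h5 : ((p ^ m : ℕ) : ℤ) ∣ ((ℓ ^ b : ℕ) : ℤ) - ((q : ℕ) : ℤ) :=
        (Nat.modEq_iff_dvd.mp h4.symm)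
      obtain ⟨k, hk⟩ := h5
      have h6 : ((ℓ ^ b : ℕ) : R) - (q : R) = ((p : R) ^ m) * (k : R) := by
        have := congrArg (Int.cast : ℤ → R) hk
        push_cast at this
        push_cast
        exact this
      rw [h6]
      exact Ideal.mul_mem_right _ _ (Ideal.pow_le_pow_right hnm (Ideal.pow_mem_pow hpR m))
    rw [h2] at h1
    have : LinearMap.det (ρ.ρ σ) - (q : R) =
        (LinearMap.det (ρ.ρ σ) - ((ℓ ^ b : ℕ) : R)) + (((ℓ ^ b : ℕ) : R) - (q : R)) := by ring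
    rw [this]
    exact Ideal.add_mem _ h1 h3

/-- **the characteristic polynomial of Frobenius at `q ‖ N`** -/
theorem charpoly_frob_of_ES [IsDomain R] [IsHausdorff (IsLocalRing.maximalIdeal R) R]
    (hp : p.Prime)
    (hpR : (p : R) ∈ IsLocalRing.maximalIdeal R) (hpS : p ∈ S)
    (hNS : ∀ q : ℕ, q.Prime → q ∣ N → q ∈ S)
    (hES : ESInterfaceF N (↑S : Set ℕ) p)
    (χ : CuspForm.heckeAlgebra N 2 (↑S : Set ℕ) →+* R) (ρ : GaloisRepAdic R)
    (hρ : ∀ (ℓ : ℕ) (hℓ : ℓ.Prime) (hℓN : ¬ ℓ ∣ N) (hℓS : ℓ ∉ (↑S : Set ℕ)),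
      ∀ A : ValuationSubring Qb, A.LiesOverPrime ℓ → ∀ σ : GQ, A.IsFrobeniusAt σ ℓ →
        LinearMap.charpoly (ρ.ρ σ) =
          X ^ 2 - C (χ (CuspForm.heckeAlgebra.T hℓ hℓN hℓS)) * X + C ((ℓ : R)))
    (q N' : ℕ) [NeZero N'] (hq : q.Prime) (hN : N = q * N') (hqN' : ¬ q ∣ N') (hqp : q ≠ p)
    (P : MvPolynomial ℕ ℤ) (hP : ev N' (↑S : Set ℕ) P = 0) (hP' : χ (ev N (↑S : Set ℕ) P) ≠ 0)
    (B : ValuationSubring Qb) (hB : B.LiesOverPrime q)
    (σ : GQ) (hσ : B.IsFrobeniusAt σ q) :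
    LinearMap.charpoly (ρ.ρ σ) = X ^ 2 - C ((q : R) + 1) * X + C ((q : R)) ∨
      LinearMap.charpoly (ρ.ρ σ) = X ^ 2 + C ((q : R) + 1) * X + C ((q : R)) := by
  have hH : IsHausdorff (IsLocalRing.maximalIdeal R) R := inferInstance
  have key := trace_det_frob_sub_mem hp hpR hpS hNS hES χ ρ hρ q N' hq hN hqN' hqp P hP B hB σ hσ
  have htr : χ (ev N (↑S : Set ℕ) P) * (ρ.trace σ ^ 2 - ((q : R) + 1) ^ 2) = 0 := by
    apply hH.haus
    intro n
    rw [SModEq.zero, smul_eq_mul, Ideal.mul_top]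
    exact (key n).1
  have hdet : LinearMap.det (ρ.ρ σ) = (q : R) := by
    rw [← sub_eq_zero]
    apply hH.haus
    intro n
    rw [SModEq.zero, smul_eq_mul, Ideal.mul_top]
    exact (key n).2
  have h2 : ρ.trace σ ^ 2 - ((q : R) + 1) ^ 2 = 0 := (mul_eq_zero.mp htr).resolve_left hP'
  have h3 : (ρ.trace σ - ((q : R) + 1)) * (ρ.trace σ + ((q : R) + 1)) = 0 := by
    rw [← h2]; ring
  rw [charpoly_eq_of_rank_two ρ.finrank_eq, hdet]
  rcases mul_eq_zero.mp h3 with h | h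
  · left
    have : LinearMap.trace R ρ.V (ρ.ρ σ) = (q : R) + 1 := sub_eq_zero.mp h
    rw [this]
  · right
    have : LinearMap.trace R ρ.V (ρ.ρ σ) = -((q : R) + 1) := eq_neg_of_add_eq_zero_left h
    rw [this, C_neg]
    ring

end

end Fermat.Agent.S35
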