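import Fermat.Agent.S22

/-!
# S35 : a ring homomorphism from the coefficient ring of an eigensystem to a ring of characteristic
zero does not kill nonzero elements
-/

set_option autoImplicit false

namespace Fermat.Agent.S35

theorem ne_zero_of_isIntegral {R₀ O : Type*} [CommRing R₀] [IsDomain R₀] [CommRing O] [CharZero O]
    (iota : R₀ →+* O) (x : R₀) (hx : IsIntegral ℤ x) (h0 : x ≠ 0) : iota x ≠ 0 := by
  intro h2
  have h5 := Ideal.comap_ne_bot_of_integral_mem (I := RingHom.ker iota) h0 h2 hx
  apply h5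
  rw [eq_bot_iff]
  intro k hk
  have h6 : iota (algebraMap ℤ R₀ k) = 0 := hk
  rw [eq_intCast, map_intCast, Int.cast_eq_zero] at h6
  exact h6

theorem iota_ne_zero {M : ℕ} [NeZero M] {S : Set ℕ} {O : Type*} [CommRing O] [CharZero O]
    (chig : CuspForm.heckeAlgebra M 2 S →+* ℂ) (iota : chig.range →+* O)
    (t : CuspForm.heckeAlgebra M 2 S) (ht : chig t ≠ 0) :
    (iota.comp chig.rangeRestrict) t ≠ 0 := by
  have hfin : Module.Finite ℤ (CuspForm.heckeAlgebra M 2 S) := Fermat.Agent.S22.result M 2 _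
  have h3 : chig.rangeRestrict t ≠ 0 := fun h => ht (congrArg Subtype.val h)
  have h4 : IsIntegral ℤ (chig.rangeRestrict t) :=
    (Algebra.IsIntegral.isIntegral (R := ℤ) t).map chig.rangeRestrict.toIntAlgHom
  exact ne_zero_of_isIntegral iota _ h4 h3

end Fermat.Agent.S35
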