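import Fermat.Agent.S35.Defs
import Fermat.Agent.S31.ES
import Fermat.Agent.S31.Raw
import Fermat.Agent.S22
import Fermat.Agent.S29.HeckeX

/-!
# S35/NEW, part 2 : strong multiplicity one at the good primes (from the Eichler–Shimura interface)

If two normalised eigenforms of levels `M`, `M'` have the same `a_ℓ` for almost all `ℓ`, then they have
the same `a_ℓ₀` for every prime `ℓ₀ ∤ M M'`: with an auxiliary prime `p ≠ ℓ₀`,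
`T_ℓ₀ ≡ dk(T_ℓ, ℓ, b) mod p ^ n` on both levels for the same Frobenius datum `(ℓ, b)`.
-/

set_option autoImplicit false

namespace Fermat.Agent.S35

open CongruenceSubgroup ModularFormClass
open Fermat.Agent.S29 (Qb GQ)
open Fermat.Agent.S31

/-- an algebraic integer divisible by all powers of `p` vanishes -/
theorem eq_zero_of_forall_pow_dvd (p : ℕ) (hp : 1 < p) (δ : ℂ)
    (h : ∀ n : ℕ, ∃ y : ℂ, IsIntegral ℤ y ∧ δ = (p : ℂ) ^ n * y) : δ = 0 := by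
  by_contra hδ
  have hint : IsIntegral ℤ δ := by
    obtain ⟨y, hy, e⟩ := h 0
    rw [pow_zero, one_mul] at e
    rw [e]; exact hy
  let δ' : integralClosure ℤ ℂ := ⟨δ, hint⟩
  have hδ' : δ' ≠ 0 := fun h0 => hδ (congrArg Subtype.val h0)
  have hint' : IsIntegral ℤ δ' := by
    rw [← isIntegral_algebraMap_iff (B := ℂ) Subtype.val_injective]
    exact hint
  have h5 := Ideal.comap_ne_bot_of_integral_mem (I := Ideal.span {δ'}) hδ'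
    (Ideal.mem_span_singleton_self _) hint'
  obtain ⟨c, hc, hc0⟩ := Submodule.exists_mem_ne_zero_of_ne_bot h5
  obtain ⟨w, hw⟩ := Ideal.mem_span_singleton'.mp (Ideal.mem_comap.mp hc)
  have hw' : (w : ℂ) * δ = (c : ℂ) := by
    have := congrArg Subtype.val hw
    simpa using this
  have hdvd : ∀ n : ℕ, ((p ^ n : ℕ) : ℤ) ∣ c := by
    intro n
    obtain ⟨y, hy, e⟩ := h n
    have hp0 : (p : ℂ) ^ n ≠ 0 := pow_ne_zero _ (Nat.cast_ne_zero.mpr (by omega))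
    have h1 : IsIntegral ℤ ((w : ℂ) * y) := w.2.mul hy
    have h2 : (w : ℂ) * y = algebraMap ℚ ℂ ((c : ℚ) / (p : ℚ) ^ n) := by
      rw [map_div₀, map_pow, map_intCast, map_natCast, eq_div_iff hp0, ← hw', e]
      ring
    rw [h2, isIntegral_algebraMap_iff (algebraMap ℚ ℂ).injective] at h1
    obtain ⟨k, hk⟩ := IsIntegrallyClosed.isIntegral_iff.mp h1
    refine ⟨k, ?_⟩
    have hp0' : (p : ℚ) ^ n ≠ 0 := pow_ne_zero _ (Nat.cast_ne_zero.mpr (by omega))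
    have h3 : (c : ℚ) = (p : ℚ) ^ n * (k : ℚ) := by
      have : (k : ℚ) = (c : ℚ) / (p : ℚ) ^ n := by simpa using hk
      rw [this]; field_simp
    exact_mod_cast h3
  have h6 := hdvd c.natAbs
  have h7 : c.natAbs < p ^ c.natAbs := Nat.lt_pow_self hp
  apply hc0
  apply Int.eq_zero_of_abs_lt_dvd h6
  rw [Int.abs_eq_natAbs]
  exact_mod_cast h7

/-- the eigencharacter of a normalised eigenform -/
theorem exists_char_of_eigenform {N : ℕ} [NeZero N] {g : CuspForm (Gamma0 N) 2}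
    (hg : g.IsNormalizedEigenform) (S : Set ℕ) (hNS : ∀ q : ℕ, q.Prime → q ∣ N → q ∈ S) :
    ∃ χ : CuspForm.heckeAlgebra N 2 S →+* ℂ,
      ∀ (ℓ : ℕ) (hℓ : ℓ.Prime) (hℓN : ¬ ℓ ∣ N) (hℓS : ℓ ∉ S),
        χ (CuspForm.heckeAlgebra.T hℓ hℓN hℓS) = qCoeff g ℓ := by
  have hg0 : g ≠ 0 := Fermat.Agent.S29.ne_zero_of_isNormalizedEigenform hg
  have hex : ∀ t : CuspForm.heckeAlgebra N 2 S, ∃ c : ℂ,
      (t : Module.End ℂ (CuspForm (Gamma0 N) 2)) g = c • g := by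
    intro t
    obtain ⟨P, rfl⟩ := ev_surjective hNS t
    induction P using MvPolynomial.induction_on with
    | C r =>
      refine ⟨(r : ℂ), ?_⟩
      rw [ev_C]
      have e : (((r : ℤ) : CuspForm.heckeAlgebra N 2 S) :
          Module.End ℂ (CuspForm (Gamma0 N) 2)) = (r : Module.End ℂ (CuspForm (Gamma0 N) 2)) := rfl
      rw [e, Module.End.intCast_apply, Int.cast_smul_eq_zsmul]
    | add x y ihx ihy =>
      obtain ⟨c, hc⟩ := ihx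
      obtain ⟨d, hd⟩ := ihy
      refine ⟨c + d, ?_⟩
      rw [map_add, add_smul, ← hc, ← hd]
      rfl
    | mul_X x ℓ ih =>
      obtain ⟨c, hc⟩ := ih
      have hX : ∃ d : ℂ, (TT N S ℓ : Module.End ℂ (CuspForm (Gamma0 N) 2)) g = d • g := by
        by_cases h : ℓ.Prime ∧ ¬ ℓ ∣ N ∧ ℓ ∉ S
        · obtain ⟨hℓ, hℓN, hℓS⟩ := h
          rw [TT_eq hℓ hℓN hℓS]
          exact ⟨_, Fermat.Agent.S29.heckeTLin_eq_smul hg hℓ hℓN⟩
        · refine ⟨0, ?_⟩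
          unfold TT
          rw [dif_neg h, zero_smul]
          rfl
      obtain ⟨d, hd⟩ := hX
      refine ⟨d * c, ?_⟩
      rw [map_mul, ev_X]
      have e : ((ev N S x * TT N S ℓ : CuspForm.heckeAlgebra N 2 S) :
          Module.End ℂ (CuspForm (Gamma0 N) 2)) g =
          (ev N S x : Module.End ℂ (CuspForm (Gamma0 N) 2))
            ((TT N S ℓ : Module.End ℂ (CuspForm (Gamma0 N) 2)) g) := rfl
      rw [e, hd, map_smul, hc, smul_smul]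
  choose χ hχ using hex
  have huniq : ∀ (t : CuspForm.heckeAlgebra N 2 S) (c : ℂ),
      (t : Module.End ℂ (CuspForm (Gamma0 N) 2)) g = c • g → χ t = c := fun t c h =>
    smul_left_injective ℂ hg0 ((hχ t).symm.trans h)
  refine ⟨{ toFun := χ
            map_one' := huniq _ _ (by rw [one_smul]; rfl)
            map_mul' := fun s t => huniq _ _ (by
              have e : ((s * t : CuspForm.heckeAlgebra N 2 S) :
                Module.End ℂ (CuspForm (Gamma0 N) 2)) g =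
                (s : Module.End ℂ (CuspForm (Gamma0 N) 2))
                  ((t : Module.End ℂ (CuspForm (Gamma0 N) 2)) g) := rfl
              rw [e, hχ t, map_smul, hχ s, smul_smul, mul_comm])
            map_zero' := huniq _ _ (by rw [zero_smul]; rfl)
            map_add' := fun s t => huniq _ _ (by
              have e : ((s + t : CuspForm.heckeAlgebra N 2 S) :
                Module.End ℂ (CuspForm (Gamma0 N) 2)) g =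
                (s : Module.End ℂ (CuspForm (Gamma0 N) 2)) g +
                  (t : Module.End ℂ (CuspForm (Gamma0 N) 2)) g := rfl
              rw [e, hχ t, hχ s, add_smul]) }, ?_⟩
  intro ℓ hℓ hℓN hℓS
  exact huniq _ _ (Fermat.Agent.S29.heckeTLin_eq_smul hg hℓ hℓN)

/-- `T_ℓ₀ ≡ dk(T_ℓ, ℓ, b) mod p ^ n` as soon as `Frob_ℓ₀ = Frob_ℓ ^ b` on a suitable number field -/
theorem exists_level_dk {p N : ℕ} [NeZero N] {S : Finset ℕ} (hp : p.Prime) (hpS : p ∈ S)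
    (hES : ESInterface N (↑S : Set ℕ) p) (n : ℕ) :
    ∃ L : IntermediateField ℚ Qb, FiniteDimensional ℚ L ∧
      ∀ (ℓ₀ : ℕ) (hℓ₀ : ℓ₀.Prime) (hℓ₀N : ¬ ℓ₀ ∣ N) (hℓ₀S : ℓ₀ ∉ (↑S : Set ℕ))
        (A₀ : ValuationSubring Qb), A₀.LiesOverPrime ℓ₀ → ∀ τ₀ : GQ, A₀.IsFrobeniusAt τ₀ ℓ₀ →
      ∀ (ℓ : ℕ) (hℓ : ℓ.Prime) (hℓN : ¬ ℓ ∣ N) (hℓS : ℓ ∉ (↑S : Set ℕ))
        (A : ValuationSubring Qb), A.LiesOverPrime ℓ → ∀ τ : GQ, A.IsFrobeniusAt τ ℓ →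
      ∀ b : ℕ, (∀ x ∈ L, τ₀ x = (τ ^ b) x) →
        ∃ y : CuspForm.heckeAlgebra N 2 (↑S : Set ℕ),
          CuspForm.heckeAlgebra.T hℓ₀ hℓ₀N hℓ₀S - dk (CuspForm.heckeAlgebra.T hℓ hℓN hℓS) (ℓ : _) b =
            (p ^ n : ℕ) • y := by
  obtain ⟨m, W, _, act, a, -, -, hkill, ⟨L', hL'fin, hL'⟩, -, ES1, -, ES3⟩ := hES n
  obtain ⟨ε, ⟨Lε, hLεfin, hLε⟩, hεfrob, -⟩ := exists_cyclo_pow hp m
  refine ⟨L' ⊔ Lε, IntermediateField.finiteDimensional_sup L' Lε, ?_⟩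
  intro ℓ₀ hℓ₀ hℓ₀N hℓ₀S A₀ hA₀ τ₀ hτ₀ ℓ hℓ hℓN hℓS A hA τ hτ b hb
  have hL'_le : L' ≤ L' ⊔ Lε := le_sup_left
  have hLε_le : Lε ≤ L' ⊔ Lε := le_sup_right
  have hℓp : ℓ ≠ p := fun hh => hℓS (Finset.mem_coe.mpr (hh ▸ hpS))
  have hℓ₀p : ℓ₀ ≠ p := fun hh => hℓ₀S (Finset.mem_coe.mpr (hh ▸ hpS))
  have hc : ((ℓ ^ b : ℕ) : ZMod (p ^ m)) = ((ℓ₀ : ℕ) : ZMod (p ^ m)) := by
    have e1 : ε τ₀ = ε τ ^ b := by
      rw [← map_pow]
      exact eq_of_level ε Lε hLε τ₀ (τ ^ b) (fun x hx => hb x (hLε_le hx))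
    have e2 : ((ε τ₀ : (ZMod (p ^ m))ˣ) : ZMod (p ^ m)) = ((ℓ ^ b : ℕ) : ZMod (p ^ m)) := by
      rw [e1, Units.val_pow_eq_pow_val, hεfrob ℓ hℓ hℓp A hA τ hτ, Nat.cast_pow]
    rw [← e2, hεfrob ℓ₀ hℓ₀ hℓ₀p A₀ hA₀ τ₀ hτ₀]
  have hinv : act τ₀ * act τ₀⁻¹ = 1 := by rw [← map_mul, mul_inv_cancel, map_one]
  have hinv' : act τ₀⁻¹ * act τ₀ = 1 := by rw [← map_mul, inv_mul_cancel, map_one]
  have hz2 : a (dk (CuspForm.heckeAlgebra.T hℓ hℓN hℓS) (ℓ : _) b) =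
      act τ₀ + ((ℓ₀ : ℕ) : AddMonoid.End W) * act τ₀⁻¹ := by
    have e1 : act τ₀ = act τ ^ b := by
      rw [← map_pow]
      exact eq_of_level act L' hL' τ₀ (τ ^ b) (fun x hx => hb x (hL'_le hx))
    have e2 : act τ₀⁻¹ = act τ⁻¹ ^ b := by
      have e4 : act τ⁻¹ ^ b * act τ ^ b = 1 := by
        rw [← map_pow, ← map_pow, ← map_mul, inv_pow, inv_mul_cancel, map_one]
      calc act τ₀⁻¹ = (act τ⁻¹ ^ b * act τ ^ b) * act τ₀⁻¹ := by rw [e4, one_mul]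
        _ = act τ⁻¹ ^ b := by rw [← e1, mul_assoc, hinv, mul_one]
    rw [← natCast_end_eq (p ^ m) hkill _ _ hc, e1, e2]
    exact map_dk_of_quad a _ ℓ (act τ) (act τ⁻¹)
      (by rw [← map_mul, mul_inv_cancel, map_one]) (by rw [← map_mul, inv_mul_cancel, map_one])
      (ES1 ℓ hℓ hℓN hℓS A hA τ hτ) b
  have hz3 : a (CuspForm.heckeAlgebra.T hℓ₀ hℓ₀N hℓ₀S) =
      act τ₀ + ((ℓ₀ : ℕ) : AddMonoid.End W) * act τ₀⁻¹ := by
    have := map_dk_of_quad a _ ℓ₀ (act τ₀) (act τ₀⁻¹) hinv hinv'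
      (ES1 ℓ₀ hℓ₀ hℓ₀N hℓ₀S A₀ hA₀ τ₀ hτ₀) 1
    simpa [dk] using this
  exact ES3 _ (by rw [map_sub, hz2, hz3, sub_self])

/-- **strong multiplicity one at the good primes** -/
theorem qCoeff_eq_of_forall_notMem {M M' : ℕ} [NeZero M] [NeZero M']
    {g : CuspForm (Gamma0 M) 2} (hg : g.IsNormalizedEigenform)
    {h : CuspForm (Gamma0 M') 2} (hh : h.IsNormalizedEigenform)
    (S : Finset ℕ) (H : ∀ ℓ : ℕ, ℓ.Prime → ℓ ∉ S → qCoeff h ℓ = qCoeff g ℓ)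
    (ℓ₀ : ℕ) (hℓ₀ : ℓ₀.Prime) (hℓ₀M : ¬ ℓ₀ ∣ M) (hℓ₀M' : ¬ ℓ₀ ∣ M') :
    qCoeff h ℓ₀ = qCoeff g ℓ₀ := by
  obtain ⟨p, hp, hpℓ₀⟩ : ∃ p : ℕ, p.Prime ∧ p ≠ ℓ₀ := by
    by_cases h2 : ℓ₀ = 2
    · exact ⟨3, Nat.prime_three, by omega⟩
    · exact ⟨2, Nat.prime_two, fun h => h2 h.symm⟩
  set S₁ : Finset ℕ := M.primeFactors ∪ M'.primeFactors ∪ {p} with hS₁
  have hpS₁ : p ∈ S₁ := by simp [hS₁]
  have hMS₁ : ∀ q : ℕ, q.Prime → q ∣ M → q ∈ S₁ := fun q hq hqM => by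
    simp [hS₁, hq, hqM, NeZero.ne M]
  have hM'S₁ : ∀ q : ℕ, q.Prime → q ∣ M' → q ∈ S₁ := fun q hq hqM => by
    simp [hS₁, hq, hqM, NeZero.ne M']
  have hℓ₀S₁ : ℓ₀ ∉ (↑S₁ : Set ℕ) := by
    intro hm
    have hm' : ℓ₀ ∈ S₁ := Finset.mem_coe.mp hm
    simp only [hS₁, Finset.mem_union, Nat.mem_primeFactors, Finset.mem_singleton] at hm'
    rcases hm' with (hm' | hm') | hm'
    · exact hℓ₀M hm'.2.1
    · exact hℓ₀M' hm'.2.1
    · exact hpℓ₀ hm'.symm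
  obtain ⟨χg, hχg⟩ := exists_char_of_eigenform hg (↑S₁ : Set ℕ)
    (fun q hq hqM => Finset.mem_coe.mpr (hMS₁ q hq hqM))
  obtain ⟨χh, hχh⟩ := exists_char_of_eigenform hh (↑S₁ : Set ℕ)
    (fun q hq hqM => Finset.mem_coe.mpr (hM'S₁ q hq hqM))
  have hfin : Module.Finite ℤ (CuspForm.heckeAlgebra M 2 (↑S₁ : Set ℕ)) :=
    Fermat.Agent.S22.result M 2 _
  have hfin' : Module.Finite ℤ (CuspForm.heckeAlgebra M' 2 (↑S₁ : Set ℕ)) :=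
    Fermat.Agent.S22.result M' 2 _
  obtain ⟨A₀, hA₀⟩ := Fermat.Agent.Frob.exists_liesOverPrime hℓ₀
  obtain ⟨τ₀, hτ₀⟩ := Fermat.Agent.Frob.exists_isFrobeniusAt A₀ hℓ₀ hA₀
  rw [← sub_eq_zero]
  apply eq_zero_of_forall_pow_dvd p hp.one_lt
  intro n
  obtain ⟨L₁, hL₁fin, hL₁⟩ := exists_level_dk hp hpS₁ (esInterface hp hpS₁ hMS₁) n
  obtain ⟨L₂, hL₂fin, hL₂⟩ := exists_level_dk hp hpS₁ (esInterface hp hpS₁ hM'S₁) n
  obtain ⟨ℓ, A, τ, b, hℓ, hℓS, hA, hτ, hb⟩ := exists_frob (S ∪ S₁) (L₁ ⊔ L₂)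
    (IntermediateField.finiteDimensional_sup L₁ L₂) τ₀
  have hℓS₀ : ℓ ∉ S := fun hm => hℓS (Finset.mem_union_left _ hm)
  have hℓS₁' : ℓ ∉ S₁ := fun hm => hℓS (Finset.mem_union_right _ hm)
  have hℓS₁ : ℓ ∉ (↑S₁ : Set ℕ) := fun hm => hℓS₁' (Finset.mem_coe.mp hm)
  have hℓM : ¬ ℓ ∣ M := fun hd => hℓS₁' (hMS₁ ℓ hℓ hd)
  have hℓM' : ¬ ℓ ∣ M' := fun hd => hℓS₁' (hM'S₁ ℓ hℓ hd)
  obtain ⟨y, hy⟩ := hL₁ ℓ₀ hℓ₀ hℓ₀M hℓ₀S₁ A₀ hA₀ τ₀ hτ₀ ℓ hℓ hℓM hℓS₁ A hA τ hτ b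
    (fun x hx => hb x ((le_sup_left : L₁ ≤ L₁ ⊔ L₂) hx))
  obtain ⟨y', hy'⟩ := hL₂ ℓ₀ hℓ₀ hℓ₀M' hℓ₀S₁ A₀ hA₀ τ₀ hτ₀ ℓ hℓ hℓM' hℓS₁ A hA τ hτ b
    (fun x hx => hb x ((le_sup_right : L₂ ≤ L₁ ⊔ L₂) hx))
  have e1 := congrArg χg hy
  have e2 := congrArg χh hy'
  rw [map_sub, map_dk, hχg, hχg, map_natCast, map_nsmul, nsmul_eq_mul, Nat.cast_pow] at e1
  rw [map_sub, map_dk, hχh, hχh, map_natCast, map_nsmul, nsmul_eq_mul, Nat.cast_pow,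
    H ℓ hℓ hℓS₀] at e2
  refine ⟨χh y' - χg y, ?_, ?_⟩
  · exact ((Algebra.IsIntegral.isIntegral (R := ℤ) y').map χh.toIntAlgHom).sub
      ((Algebra.IsIntegral.isIntegral (R := ℤ) y).map χg.toIntAlgHom)
  · rw [mul_sub, ← e1, ← e2]; ring

end Fermat.Agent.S35
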