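import Fermat.Agent.S35.Eigen
import Fermat.Agent.S35.SMO
import Fermat.Prelude.Def_CuspForm_Newforms

/-!
# S35/NEW : a newform of level `M = q M'` is detected by a polynomial in the `T_ℓ` killing level `M'`

Otherwise the eigensystem of `g` factors through the Hecke algebra of level `M'`, hence is the
eigensystem of a normalised eigenform `h` of level `M'` (`Eigen.lean`), which has the same `a_ℓ` as `g`
for all `ℓ ∤ M` by strong multiplicity one (`SMO.lean`).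
-/

set_option autoImplicit false

namespace Fermat.Agent.S35

open CongruenceSubgroup

theorem exists_poly_of_isNewform {M : ℕ} [NeZero M] {g : CuspForm (Gamma0 M) 2} (hg : g.IsNewform)
    (S : Finset ℕ) (hMS : ∀ q : ℕ, q.Prime → q ∣ M → q ∈ S)
    (chig : CuspForm.heckeAlgebra M 2 (↑S : Set ℕ) →+* ℂ)
    (hchig : ∀ (ℓ : ℕ) (hℓ : ℓ.Prime) (hℓM : ¬ ℓ ∣ M) (hℓS : ℓ ∉ (↑S : Set ℕ)),
      chig (CuspForm.heckeAlgebra.T hℓ hℓM hℓS) = ModularFormClass.qCoeff g ℓ)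
    (q M' : ℕ) [NeZero M'] (hq : q.Prime) (hM : M = q * M') :
    ∃ P : MvPolynomial ℕ ℤ, ev M' (↑S : Set ℕ) P = 0 ∧ chig (ev M (↑S : Set ℕ) P) ≠ 0 := by
  by_contra hcon
  push Not at hcon
  have hM'M : M' ∣ M := ⟨q, by rw [hM, mul_comm]⟩
  have hM'S : ∀ q' : ℕ, q'.Prime → q' ∣ M' → q' ∈ (↑S : Set ℕ) := fun q' hq' hd =>
    Finset.mem_coe.mpr (hMS q' hq' (hd.trans hM'M))
  have hsurj := ev_surjective hM'S
  let ψ : CuspForm.heckeAlgebra M' 2 (↑S : Set ℕ) →+* ℂ :=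
    (ev M' (↑S : Set ℕ)).liftOfSurjective hsurj
      ⟨chig.comp (ev M (↑S : Set ℕ)), fun P hP => hcon P hP⟩
  have hψ : ∀ P, ψ (ev M' (↑S : Set ℕ) P) = chig (ev M (↑S : Set ℕ) P) := fun P =>
    (ev M' (↑S : Set ℕ)).liftOfRightInverse_comp_apply _ _
      ⟨chig.comp (ev M (↑S : Set ℕ)), fun P hP => hcon P hP⟩ P
  obtain ⟨h, hh, hhψ⟩ := exists_normalizedEigenform_of_char M' (↑S : Set ℕ) ψ
  have H : ∀ ℓ : ℕ, ℓ.Prime → ℓ ∉ S → ModularFormClass.qCoeff h ℓ = ModularFormClass.qCoeff g ℓ := by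
    intro ℓ hℓ hℓS
    have hℓS' : ℓ ∉ (↑S : Set ℕ) := fun hm => hℓS (Finset.mem_coe.mp hm)
    have hℓM : ¬ ℓ ∣ M := fun hd => hℓS (hMS ℓ hℓ hd)
    have hℓM' : ¬ ℓ ∣ M' := fun hd => hℓM (hd.trans hM'M)
    rw [hhψ ℓ hℓ hℓM' hℓS', ← TT_eq hℓ hℓM' hℓS', ← ev_X, hψ, ev_X, TT_eq hℓ hℓM hℓS', hchig]
  refine hg.2 M' hM'M ?_ ⟨h, hh, fun ℓ hℓ hℓM => ?_⟩
  · intro he
    have h1 : 0 < M' := Nat.pos_of_ne_zero (NeZero.ne M')
    have h2 := hq.two_le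
    rw [hM] at he
    nlinarith
  · exact qCoeff_eq_of_forall_notMem hg.1 hh S H ℓ hℓ hℓM (fun hd => hℓM (hd.trans hM'M))

end Fermat.Agent.S35
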