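import Fermat.Agent.S29.Eig
import Fermat.Agent.S31.Lat
import Fermat.Agent.S21.Final
import Fermat.Agent.S49.Normalize

/-!
# S35/NEW, part 1 : from a character of the Hecke algebra to a normalised eigenform
-/

set_option autoImplicit false

open TensorProduct

namespace Fermat.Agent.S35

open CongruenceSubgroup ModularCurve
open Fermat.Agent.S29 (XN)
open Fermat.Agent.S29.HeckeXAux

/-- every character of a commutative ring acting faithfully on a lattice occurs in the lattice -/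
theorem exists_eigenvector_of_char {𝕋 X : Type*} [CommRing 𝕋] [AddCommGroup X] [Module.Free ℤ X]
    [Module.Finite ℤ X] (κ : 𝕋 →+* Module.End ℤ X) (hκ : Function.Injective κ)
    {k : Type*} [Field k] (ψ : 𝕋 →+* k) :
    ∃ y : k ⊗[ℤ] X, y ≠ 0 ∧ ∀ t, (κ t).baseChange k y = ψ t • y := by
  let ρ : 𝕋 →+* Module.End ℤ (Module.Dual ℤ X) :=
    { toFun := fun τ => Module.Dual.transpose (R := ℤ) (κ τ)
      map_one' := by
        rw [map_one]
        ext m y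
        rfl
      map_mul' := fun τ σ => by
        rw [mul_comm τ σ, map_mul]
        ext m y
        rfl
      map_zero' := by
        ext m y
        simp
      map_add' := fun τ σ => by
        ext m y
        simp }
  let _ : Module 𝕋 (Module.Dual ℤ X) := Module.compHom _ ρ
  have hsmul : ∀ (τ : 𝕋) (m : Module.Dual ℤ X), τ • m = m ∘ₗ κ τ := fun τ m => rfl
  have hfin : Module.Finite 𝕋 (Module.Dual ℤ X) := by
    have htower : IsScalarTower ℤ 𝕋 (Module.Dual ℤ X) := by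
      refine ⟨fun n τ m => ?_⟩
      rw [hsmul, hsmul]
      ext y
      simp
    exact Module.Finite.of_restrictScalars_finite ℤ _ _
  have hfaith : FaithfulSMul 𝕋 (Module.Dual ℤ X) := by
    refine ⟨fun {τ σ} h => hκ ?_⟩
    ext y
    rw [← sub_eq_zero, ← Module.forall_dual_apply_eq_zero_iff ℤ]
    intro m
    have := DFunLike.congr_fun (h m) y
    rw [hsmul, hsmul, LinearMap.comp_apply, LinearMap.comp_apply] at this
    rw [map_sub, this, sub_self]
  obtain ⟨g, hg, hgψ⟩ := Fermat.Agent.S29.EigAux.exists_functional (M := Module.Dual ℤ X) ψ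
  obtain ⟨y, hy, hyT⟩ := Fermat.Agent.S29.EigAux.exists_vector g hg
  exact ⟨y, hy, fun t => hyT (κ t) (ψ t) fun m => hgψ t m⟩

theorem Phi_mem (N : ℕ) [NeZero N] (x : ℂ ⊗[ℤ] (XN N)) :
    Phi N x ∈ Period.parabolicHoms ℂ (Gamma0 N) ℂ := by
  induction x using TensorProduct.induction_on with
  | zero => rw [map_zero]; exact Submodule.zero_mem _
  | tmul z c => rw [Phi_tmul]; exact Submodule.smul_mem _ _ (castC_mem c.2)
  | add x y hx hy => rw [map_add]; exact Submodule.add_mem _ hx hy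

/-- every character of the Hecke algebra is the eigensystem of a nonzero cusp form -/
theorem exists_eigenform_of_char (N : ℕ) [NeZero N] (S : Set ℕ)
    (ψ : CuspForm.heckeAlgebra N 2 S →+* ℂ) :
    ∃ f : CuspForm (Gamma0 N) 2, f ≠ 0 ∧
      ∀ (ℓ : ℕ) (hℓ : ℓ.Prime) (hℓN : ¬ ℓ ∣ N) (hℓS : ℓ ∉ S),
        CuspForm.heckeTLin 2 hℓ hℓN f = ψ (CuspForm.heckeAlgebra.T hℓ hℓN hℓS) • f := by
  obtain ⟨y, hy, hyT⟩ := exists_eigenvector_of_char
    (Fermat.Agent.S31.kap : CuspForm.heckeAlgebra N 2 S →+* Module.End ℤ (XN N))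
    Fermat.Agent.S31.kap_injective ψ
  obtain ⟨f, f', hff⟩ := exists_pair (Phi_mem N y)
  have hne : (f, f') ≠ 0 := by
    intro h0
    rw [h0, map_zero] at hff
    exact hy (Phi_injective N (hff.symm.trans (map_zero _).symm))
  have key : ∀ (ℓ : ℕ) (hℓ : ℓ.Prime) (hℓN : ¬ ℓ ∣ N) (hℓS : ℓ ∉ S),
      (CuspForm.heckeTLin 2 hℓ hℓN f, CuspForm.heckeTLin 2 hℓ hℓN f') =
        ψ (CuspForm.heckeAlgebra.T hℓ hℓN hℓS) • (f, f') := by
    intro ℓ hℓ hℓN hℓS
    apply (Fermat.Agent.S21.result N).1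
    rw [← Phi_heckeX hℓ hℓN y f f' hff.symm, ← Fermat.Agent.S31.kap_T hℓ hℓN hℓS, hyT, map_smul,
      map_smul, hff]
  by_cases hf : f = 0
  · refine ⟨f', fun h => hne (by rw [hf, h]; rfl), fun ℓ hℓ hℓN hℓS => ?_⟩
    exact congrArg Prod.snd (key ℓ hℓ hℓN hℓS)
  · exact ⟨f, hf, fun ℓ hℓ hℓN hℓS => congrArg Prod.fst (key ℓ hℓ hℓN hℓS)⟩

/-- a commuting family of endomorphisms stabilising a nonzero subspace has a common eigenvector in
it -/
theorem exists_common_eigenvector_mem {K V : Type*} [Field K] [IsAlgClosed K] [AddCommGroup V]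
    [Module K V] [FiniteDimensional K V] (𝒞 : Set (Module.End K V))
    (hcomm : ∀ T ∈ 𝒞, ∀ T' ∈ 𝒞, Commute T T')
    (W : Submodule K V) (hW : W ≠ ⊥) (hstab : ∀ T ∈ 𝒞, ∀ w ∈ W, T w ∈ W) :
    ∃ v ∈ W, v ≠ 0 ∧ ∀ T ∈ 𝒞, ∃ μ : K, T v = μ • v := by
  classical
  let Good : Submodule K V → Prop := fun U => U ≠ ⊥ ∧ U ≤ W ∧ ∀ T ∈ 𝒞, ∀ w ∈ U, T w ∈ U
  have hne : ∃ n : ℕ, ∃ U, Good U ∧ Module.finrank K U = n := ⟨_, W, ⟨hW, le_rfl, hstab⟩, rfl⟩
  obtain ⟨U, ⟨hU0, hUW, hUs⟩, hn⟩ := Nat.find_spec hne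
  have hmin : ∀ U', Good U' → U' ≤ U → U' = U := by
    intro U' hU' hle
    apply Submodule.eq_of_le_of_finrank_le hle
    rw [hn]
    exact Nat.find_min' hne ⟨U', hU', rfl⟩
  obtain ⟨v, hvU, hv0⟩ := Submodule.exists_mem_ne_zero_of_ne_bot hU0
  refine ⟨v, hUW hvU, hv0, fun T hT => ?_⟩
  have : Nontrivial U := Submodule.nontrivial_iff_ne_bot.mpr hU0
  let r : Module.End K U := T.restrict (fun w hw => hUs T hT w hw)
  obtain ⟨μ, hμ⟩ := Module.End.exists_eigenvalue r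
  obtain ⟨w, hw⟩ := hμ.exists_hasEigenvector
  have hw1 : T (w : V) = μ • (w : V) := by
    have := congrArg Subtype.val hw.apply_eq_smul
    simpa [r] using this
  have hw0 : (w : V) ≠ 0 := fun h => hw.2 (Subtype.ext h)
  have hmem : ∀ x : V, x ∈ U ⊓ LinearMap.ker (T - μ • (1 : Module.End K V)) ↔
      x ∈ U ∧ T x = μ • x := by
    intro x
    rw [Submodule.mem_inf, LinearMap.mem_ker, LinearMap.sub_apply, LinearMap.smul_apply,
      Module.End.one_apply, sub_eq_zero]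
  have hgood : Good (U ⊓ LinearMap.ker (T - μ • (1 : Module.End K V))) := by
    refine ⟨?_, inf_le_left.trans hUW, ?_⟩
    · intro h0
      have h1 : (w : V) ∈ U ⊓ LinearMap.ker (T - μ • (1 : Module.End K V)) :=
        (hmem _).mpr ⟨w.2, hw1⟩
      rw [h0] at h1
      exact hw0 (by simpa using h1)
    · intro T' hT' x hx
      rw [hmem] at hx ⊢
      refine ⟨hUs T' hT' x hx.1, ?_⟩
      rw [← Module.End.mul_apply, (hcomm T hT T' hT').eq, Module.End.mul_apply, hx.2, map_smul]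
  have heq := hmin _ hgood inf_le_left
  have hv : v ∈ U ⊓ LinearMap.ker (T - μ • (1 : Module.End K V)) := by rw [heq]; exact hvU
  exact ⟨μ, ((hmem v).mp hv).2⟩

/-- every character of the Hecke algebra away from `S` is the eigensystem of a normalised
eigenform -/
theorem exists_normalizedEigenform_of_char (N : ℕ) [NeZero N] (S : Set ℕ)
    (ψ : CuspForm.heckeAlgebra N 2 S →+* ℂ) :
    ∃ h : CuspForm (Gamma0 N) 2, h.IsNormalizedEigenform ∧
      ∀ (ℓ : ℕ) (hℓ : ℓ.Prime) (hℓN : ¬ ℓ ∣ N) (hℓS : ℓ ∉ S),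
        ModularFormClass.qCoeff h ℓ = ψ (CuspForm.heckeAlgebra.T hℓ hℓN hℓS) := by
  classical
  obtain ⟨f, hf0, hf⟩ := exists_eigenform_of_char N S ψ
  haveI := Fermat.Agent.S21.finiteDimensional_cuspForm N
  let W : Submodule ℂ (CuspForm (Gamma0 N) 2) :=
    { carrier := {f | ∀ (ℓ : ℕ) (hℓ : ℓ.Prime) (hℓN : ¬ ℓ ∣ N) (hℓS : ℓ ∉ S),
        CuspForm.heckeTLin 2 hℓ hℓN f = ψ (CuspForm.heckeAlgebra.T hℓ hℓN hℓS) • f}
      add_mem' := fun {a b} ha hb ℓ hℓ hℓN hℓS => by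
        rw [map_add, ha ℓ hℓ hℓN hℓS, hb ℓ hℓ hℓN hℓS, smul_add]
      zero_mem' := fun ℓ hℓ hℓN hℓS => by rw [map_zero, smul_zero]
      smul_mem' := fun c a ha ℓ hℓ hℓN hℓS => by
        rw [map_smul, ha ℓ hℓ hℓN hℓS, smul_comm] }
  have hW : W ≠ ⊥ := fun h0 => hf0 (by
    have : f ∈ W := hf
    rw [h0] at this
    simpa using this)
  obtain ⟨v, hvW, hv0, hv⟩ := exists_common_eigenvector_mem (CuspForm.heckeGenerators N 2 ∅)
    (fun T hT T' hT' => CuspForm.commute_of_mem_heckeGenerators hT hT') W hW (by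
      intro T hT w hw ℓ hℓ hℓN hℓS
      have hc : Commute (CuspForm.heckeTLin 2 hℓ hℓN) T :=
        CuspForm.commute_of_mem_heckeGenerators
          (CuspForm.heckeTLin_mem_heckeGenerators hℓ hℓN (Set.notMem_empty ℓ)) hT
      rw [← Module.End.mul_apply, hc.eq, Module.End.mul_apply, hw ℓ hℓ hℓN hℓS, map_smul])
  have hT : ∀ (ℓ : ℕ) (hℓ : ℓ.Prime) (hℓN : ¬ ℓ ∣ N), ∃ μ : ℂ,
      CuspForm.heckeTLin 2 hℓ hℓN v = μ • v := fun ℓ hℓ hℓN =>
    hv _ (CuspForm.heckeTLin_mem_heckeGenerators hℓ hℓN (Set.notMem_empty ℓ))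
  have hU : ∀ (ℓ : ℕ) (_ : ℓ.Prime) (hℓN : ℓ ∣ N), ∃ μ : ℂ,
      CuspForm.heckeULin 2 hℓN v = μ • v := fun ℓ hℓ hℓN =>
    hv _ (CuspForm.heckeULin_mem_heckeGenerators hℓ hℓN (Set.notMem_empty ℓ))
  let μ : ℕ → ℂ := fun ℓ =>
    if hℓ : ℓ.Prime then
      if hℓN : ℓ ∣ N then (hU ℓ hℓ hℓN).choose else (hT ℓ hℓ hℓN).choose
    else 0
  obtain ⟨h, hh, hhμ⟩ := Fermat.Agent.S49.exists_normalizedEigenform_of_eigenvector v hv0 μ
    (fun ℓ hℓ hℓN => by
      have : μ ℓ = (hT ℓ hℓ hℓN).choose := by simp only [μ, dif_pos hℓ, dif_neg hℓN]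
      rw [this]
      exact (hT ℓ hℓ hℓN).choose_spec)
    (fun ℓ hℓ hℓN => by
      have : μ ℓ = (hU ℓ hℓ hℓN).choose := by simp only [μ, dif_pos hℓ, dif_pos hℓN]
      rw [this]
      exact (hU ℓ hℓ hℓN).choose_spec)
  refine ⟨h, hh, fun ℓ hℓ hℓN hℓS => ?_⟩
  rw [hhμ ℓ hℓ]
  have h1 : μ ℓ = (hT ℓ hℓ hℓN).choose := by simp only [μ, dif_pos hℓ, dif_neg hℓN]
  have h2 := (hT ℓ hℓ hℓN).choose_spec
  rw [← h1, hvW ℓ hℓ hℓN hℓS] at h2
  exact (smul_left_injective ℂ hv0 h2).symm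

end Fermat.Agent.S35
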