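import Fermat.Agent.S35.Rd
import Fermat.Agent.S37.NormQ
import Fermat.Agent.S34.Mod.Wq

/-!
# S35/ES5, part E4 : the reduction of a norm `F_{M1 q} → F_{M1}` at a place over `q`

`A ∣ q`, `u ∈ F_{M1 q}ˣ`, `a = red u`, `b = red (W_q u)` (up to constants).  Then
`red (N_α u) = a * Fr b`, `Fr` = Frobenius on the coefficients.

Proof.  `S37.qExpand_normAlpha` (with `ℓ := q`, `W := Wq h`):
`(N_α u)(x ^ q) = u(x ^ q) * ∏_{i < q} (W u)(ζ ^ i x)`; `ζ ≡ 1` modulo the maximal ideal (as in `ES.Alg.IntRed.hecke`: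
`ζA : Aˣ`, `eq_one_of_pow_char`), so the right side has reduction `a(x ^ q) * b ^ q = (a * Fr b)(x ^ q)`
(`Rp.qExpand`, `Rp.twist`, `Rp.prod_const`, `ES.Alg.pow_char_eq_qExpand`).  Conclude by `rp_of_qExpand`.
-/

set_option autoImplicit false
set_option synthInstance.maxHeartbeats 400000

open HahnSeries ModularCurve AlgebraicCurve Fermat.Agent.S24 Fermat.Agent.S29 Fermat.Agent.S18
  Fermat.Agent.ES.Alg Fermat.Agent.S34.Mod

noncomputable section

namespace Fermat.Agent.S35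

variable {M1 q : ℕ} [NeZero M1] [NeZero q] {A : ValuationSubring Kb}

theorem rp_normAlpha [Fact q.Prime] [CharP (kA A) q] (h : Nat.Coprime q M1) (u : FN (M1 * q))
    {a b : LaurentSeries (kA A)} (ha : Rp A (u : LaurentSeries Kb) a)
    (hb : Rp A (Wq h u : LaurentSeries Kb) b) :
    Rp A (normAlpha M1 q u : LaurentSeries Kb) (a * coeffMap (frobenius (kA A) q) b) := by
  have hq : q.Prime := Fact.out
  have hN : ¬ q ∣ M1 := (Nat.Prime.coprime_iff_not_dvd hq).mp h
  obtain ⟨ζ0, hζ0⟩ := HasEnoughRootsOfUnity.exists_primitiveRoot Kb q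
  have hmem : ∀ n : ℕ, ζ0 ^ n ∈ A := fun n =>
    Frob.mem_of_isIntegral A ((hζ0.isIntegral hq.pos).pow n)
  have hinv : ζ0 * ζ0 ^ (q - 1) = 1 := by
    rw [← pow_succ', Nat.sub_add_cancel hq.one_le, hζ0.pow_eq_one]
  let ζA : Aˣ := ⟨⟨ζ0, by simpa using hmem 1⟩, ⟨ζ0 ^ (q - 1), hmem _⟩, Subtype.ext hinv,
    Subtype.ext (by rw [mul_comm] at hinv; exact hinv)⟩
  let ζ : Kbˣ := Units.map (A.subtype : A →* Kb) ζA
  have hζ : IsPrimitiveRoot ζ q := by
    rw [← IsPrimitiveRoot.coe_units_iff]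
    exact hζ0
  have hζA : ζA ^ q = 1 := by
    apply Units.ext
    apply Subtype.ext
    show (ζ0 : Kb) ^ q = 1
    exact hζ0.pow_eq_one
  have h1 : Units.map ((IsLocalRing.residue A : A →+* kA A) : A →* kA A) ζA = 1 :=
    eq_one_of_pow_char (ℓ := q) (by rw [← map_pow, hζA, map_one])
  have hres : ∀ j : ℕ, IsLocalRing.residue A ((ζA ^ j : Aˣ) : A) = 1 := by
    intro j
    have h2 := congrArg (fun x : (kA A)ˣ => (x : kA A)) h1
    have h3 : IsLocalRing.residue A (ζA : A) = 1 := h2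
    rw [Units.val_pow_eq_pow_val, map_pow, h3, one_pow]
  have key := Fermat.Agent.S37.qExpand_normAlpha M1 q hq hN (Wq h) (Wq_alpha h) (Wq_beta h) ζ hζ u
  apply rp_of_qExpand q
  have e1 : qExpand Kb q ((normAlpha M1 q u : FN M1) : LaurentSeries Kb) =
      qExpand Kb q (u : LaurentSeries Kb) *
        ∏ j ∈ Finset.range q, twist (Units.map (A.subtype : A →* Kb) (ζA ^ j))
          (Wq h u : LaurentSeries Kb) := by
    refine key.trans ?_
    congr 1
  rw [e1, map_mul, ← pow_char_eq_qExpand]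
  have h4 := Rp.prod_const (A := A) (Finset.range q)
    (fun j => twist (Units.map (A.subtype : A →* Kb) (ζA ^ j)) (Wq h u : LaurentSeries Kb))
    (fun j _ => hb.twist (ζA ^ j) (hres j)) hb.1
  rw [Finset.card_range] at h4
  exact (ha.qExpand q).mul h4

end Fermat.Agent.S35
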