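import Fermat.Agent.S35.Defs
import Fermat.Agent.S31.Raw

/-!
# S35/RAW : the interface `ESInterfaceF` from raw Kummer data (pure algebra)

Same as `Fermat.Agent.S31.esInterface_of_raw`; the new clause is
`σ⁴ w + q² w = (q² + 1) σ² w` for `w = g (Θ (P(T) c))`, `σ` a Frobenius lift at `q ‖ N`, `q ≠ p`,
`P(T) = 0` at level `N / q`.
-/

set_option autoImplicit false

namespace Fermat.Agent.S35

open Fermat.Agent.S29 (Qb GQ)
open Fermat.Agent.S31

theorem hasLift_of_raw {N : ℕ} [NeZero N] {S : Finset ℕ}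
    (hNS : ∀ q : ℕ, q.Prime → q ∣ N → q ∈ S)
    {X : Type} [AddCommGroup X]
    (κ : CuspForm.heckeAlgebra N 2 (↑S : Set ℕ) →+* Module.End ℤ X)
    {𝒲 : Type} [AddCommGroup 𝒲] (act : GQ →* AddMonoid.End 𝒲) (Θ : X →+ 𝒲)
    (hES : ∀ (ℓ : ℕ) (hℓ : ℓ.Prime) (hℓN : ¬ ℓ ∣ N) (hℓS : ℓ ∉ (↑S : Set ℕ))
      (A : ValuationSubring Qb),
        A.LiesOverPrime ℓ → ∀ σ : GQ, A.IsFrobeniusAt σ ℓ → ∀ (g : GQ) (c : X),
          act g (Θ (κ (CuspForm.heckeAlgebra.T hℓ hℓN hℓS) c)) =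
            act σ (act g (Θ c)) + ℓ • act σ⁻¹ (act g (Θ c))) :
    ∀ t, HasLift act Θ κ t := by
  intro t
  obtain ⟨P, rfl⟩ := ev_surjective (S := (↑S : Set ℕ))
    (fun q hq hqN => Finset.mem_coe.mpr (hNS q hq hqN)) t
  induction P using MvPolynomial.induction_on with
  | C r => rw [ev_C]; exact HasLift.intCast act Θ κ r
  | add x y ihx ihy => rw [map_add]; exact ihx.add act Θ κ ihy
  | mul_X x ℓ ih =>
    rw [map_mul, ev_X]
    refine ih.mul act Θ κ ?_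
    by_cases h : ℓ.Prime ∧ ¬ ℓ ∣ N ∧ ℓ ∉ (↑S : Set ℕ)
    · obtain ⟨hℓ, hℓN, hℓS⟩ := h
      rw [TT_eq hℓ hℓN hℓS]
      obtain ⟨A, hA⟩ := Fermat.Agent.Frob.exists_liesOverPrime hℓ
      obtain ⟨σ, hσ⟩ := Fermat.Agent.Frob.exists_isFrobeniusAt A hℓ hA
      refine ⟨act σ + (ℓ : AddMonoid.End 𝒲) * act σ⁻¹, fun g c => ?_⟩
      rw [end_add_apply, end_mul_apply, AddMonoid.End.natCast_apply]
      exact (hES ℓ hℓ hℓN hℓS A hA σ hσ g c).symm
    · have e : TT N (↑S : Set ℕ) ℓ = ((0 : ℤ) : CuspForm.heckeAlgebra N 2 (↑S : Set ℕ)) := by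
        unfold TT
        rw [dif_neg h, Int.cast_zero]
      rw [e]
      exact HasLift.intCast act Θ κ 0

theorem esInterfaceF_of_raw {p N : ℕ} [NeZero N] {S : Finset ℕ} (hp : p.Prime)
    (hNS : ∀ q : ℕ, q.Prime → q ∣ N → q ∈ S)
    (X : Type) [AddCommGroup X] [Module.Free ℤ X] [Module.Finite ℤ X]
    (κ : CuspForm.heckeAlgebra N 2 (↑S : Set ℕ) →+* Module.End ℤ X) (hκ : Function.Injective κ)
    (raw : ∀ m : ℕ, ∃ (𝒲 : Type) (_ : AddCommGroup 𝒲) (act : GQ →* AddMonoid.End 𝒲) (Θ : X →+ 𝒲),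
      (∀ w : 𝒲, (p ^ m) • w = 0) ∧
      (∀ c, Θ c = 0 → ∃ c', c = (p ^ m) • c') ∧
      (∀ c, ∃ L : IntermediateField ℚ Qb, FiniteDimensional ℚ L ∧
        ∀ g : GQ, (∀ x ∈ L, g x = x) → act g (Θ c) = Θ c) ∧
      (∀ (ℓ : ℕ) (hℓ : ℓ.Prime) (hℓN : ¬ ℓ ∣ N) (hℓS : ℓ ∉ (↑S : Set ℕ)) (A : ValuationSubring Qb),
        A.LiesOverPrime ℓ → ∀ σ : GQ, A.IsFrobeniusAt σ ℓ → ∀ (g : GQ) (c : X),
          act g (Θ (κ (CuspForm.heckeAlgebra.T hℓ hℓN hℓS) c)) =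
            act σ (act g (Θ c)) + ℓ • act σ⁻¹ (act g (Θ c))) ∧
      (∀ (q N' : ℕ) [NeZero N'], q.Prime → N = q * N' → ¬ q ∣ N' → q ≠ p →
        ∀ P : MvPolynomial ℕ ℤ, ev N' (↑S : Set ℕ) P = 0 → ∀ A : ValuationSubring Qb,
        A.LiesOverPrime q → ∀ σ : GQ, A.IsFrobeniusAt σ q → ∀ (g : GQ) (c : X),
          act σ (act σ (act σ (act σ (act g (Θ (κ (ev N (↑S : Set ℕ) P) c)))))) +
              (q ^ 2) • act g (Θ (κ (ev N (↑S : Set ℕ) P) c)) =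
            (q ^ 2 + 1) • act σ (act σ (act g (Θ (κ (ev N (↑S : Set ℕ) P) c)))))) :
    ESInterfaceF N (↑S : Set ℕ) p := by
  obtain ⟨e, he⟩ := exists_saturation κ hκ p hp
  intro n
  obtain ⟨𝒲, _, act, Θ, hkill, hker, hlevel, hES, hF⟩ := raw (n + e)
  have hall : ∀ t, HasLift act Θ κ t := hasLift_of_raw hNS κ act Θ hES
  obtain ⟨L, hLfin, hLnorm, hL⟩ := exists_level act Θ hlevel
  refine ⟨n + e, W1 act Θ, inferInstance, act1 act Θ, a1 act Θ κ hall, Nat.le_add_right _ _,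
    fun w => Subtype.ext (hkill w), ⟨L, hLfin, fun σ hσ => act1_eq_one_of_fixes act Θ L hL σ hσ⟩,
    ?_, ?_, ?_⟩
  · intro ℓ hℓ hℓN hℓS A hA τ hτ
    apply end_ext_W1
    intro g c
    apply Subtype.ext
    rw [end_add_apply, end_sub_apply, end_mul_apply, end_mul_apply, act1_gen, act1_gen,
      AddMonoid.End.natCast_apply, end_zero_apply, AddSubgroup.coe_add, AddSubgroup.coe_sub, a1_gen,
      hES ℓ hℓ hℓN hℓS A hA τ hτ (τ * g) c]
    have h1 : act τ⁻¹ (act (τ * g) (Θ c)) = act g (Θ c) := by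
      rw [← end_mul_apply, ← map_mul, inv_mul_cancel_left]
    have h2 : act τ (act (τ * g) (Θ c)) = act (τ * (τ * g)) (Θ c) := by
      rw [← end_mul_apply, ← map_mul]
    rw [h1, h2]
    simp
  · intro q N' _ hq hN hqN' hqp P hP A hA σ hσ
    have hc := a1_commute act Θ κ hall (ev N (↑S : Set ℕ) P) σ
    have hc2 : Commute (a1 act Θ κ hall (ev N (↑S : Set ℕ) P))
        ((act1 act Θ σ * act1 act Θ σ - ((q ^ 2 : ℕ) : AddMonoid.End (W1 act Θ))) *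
          (act1 act Θ σ * act1 act Θ σ - 1)) :=
      (((hc.mul_right hc).sub_right (Nat.cast_commute _ _).symm)).mul_right
        ((hc.mul_right hc).sub_right (Commute.one_right _))
    rw [mul_assoc, hc2.eq]
    apply end_ext_W1
    intro g c
    apply Subtype.ext
    have h1 := hF q N' hq hN hqN' hqp P hP A hA σ hσ g c
    set x : W1 act Θ := a1 act Θ κ hall (ev N (↑S : Set ℕ) P) ⟨act g (Θ c), gen_mem_W1 act Θ g c⟩
      with hx
    have hxv : (x : 𝒲) = act g (Θ (κ (ev N (↑S : Set ℕ) P) c)) := a1_gen act Θ κ hall _ g c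
    rw [← hxv] at h1
    rw [end_mul_apply, ← hx, end_mul_apply, end_sub_apply, end_sub_apply, end_one_apply,
      end_mul_apply, end_mul_apply, AddMonoid.End.natCast_apply, end_zero_apply, map_sub, map_sub]
    simp only [AddSubgroup.coe_sub, coe_act1, AddSubgroup.coe_zero, AddSubgroup.coe_nsmul]
    have h2 : act σ (act σ (act σ (act σ (x : 𝒲)))) - act σ (act σ (x : 𝒲)) -
        (q ^ 2) • (act σ (act σ (x : 𝒲)) - (x : 𝒲)) =
        act σ (act σ (act σ (act σ (x : 𝒲)))) + (q ^ 2) • (x : 𝒲) -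
          (q ^ 2 + 1) • act σ (act σ (x : 𝒲)) := by
      rw [smul_sub, add_smul, one_smul]; abel
    rw [h2, h1, sub_self]
  · intro x hx
    apply he n x
    intro v
    apply hker
    have h1 := a1_gen act Θ κ hall x 1 v
    rw [hx, end_zero_apply] at h1
    have h2 : act 1 (Θ (κ x v)) = Θ (κ x v) := by rw [map_one, end_one_apply]
    rw [← h2, ← h1]; rfl

end Fermat.Agent.S35
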