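import Fermat.Agent.ES.AlgES

/-!
# S35/ES5, part RD : reduction of quotients of integral Laurent series

`A` a valuation subring of `Kb = ℚ̄`, `k = kA A` its residue field, `red A : A((q)) → k((q))`.

* `Rd A s r` : `s ∈ Kb((q))` is a quotient `y₁ / y₂`, `yᵢ ∈ A((q))`, `red y₂ ≠ 0`, and `r = red y₁ / red y₂`
  ("`s` is integral for the Gauss valuation, with reduction `r`"; `r = 0` is allowed).
  It is a "partial ring homomorphism": `unique`, `add`, `mul`, `inv` (`r ≠ 0`), constants, `q ↦ q ^ ℓ`,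
  `q ↦ ζ q` (`ζ ≡ 1`), Galois conjugation.
* `Rp A s r` : `r ≠ 0` and `Rd A (c s) r` for some constant `c ≠ 0` ("reduction up to a constant").
* `rp_one_iff` : for `f ∈ FN N` : `Rp A f 1 ↔ ∃ c ≠ 0, Cong A N (c f)`.

All proofs are 3–15 lines: unfold, multiply the denominators, use that `coeffMap A.subtype` is injective and that
`k((q))` is a field.
-/

set_option autoImplicit false
set_option synthInstance.maxHeartbeats 400000

open HahnSeries ModularCurve AlgebraicCurve Fermat.Agent.S24 Fermat.Agent.S29 Fermat.Agent.S18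
  Fermat.Agent.ES.Alg

noncomputable section

namespace Fermat.Agent.S35

variable (A : ValuationSubring Kb)

/-- the constant series -/
abbrev cK (c : Kb) : LaurentSeries Kb := algebraMap Kb (LaurentSeries Kb) c

/-- the constant series over the residue field -/
abbrev ck (e : kA A) : LaurentSeries (kA A) := algebraMap (kA A) (LaurentSeries (kA A)) e

/-- `s = y₁ / y₂` with `yᵢ` integral, `red y₂ ≠ 0`, `r = red y₁ / red y₂` -/
def Rd (s : LaurentSeries Kb) (r : LaurentSeries (kA A)) : Prop :=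
  ∃ y1 y2 : LaurentSeries A, red A y2 ≠ 0 ∧ s * coeffMap A.subtype y2 = coeffMap A.subtype y1 ∧
    r * red A y2 = red A y1

/-- reduction up to a nonzero constant -/
def Rp (s : LaurentSeries Kb) (r : LaurentSeries (kA A)) : Prop :=
  r ≠ 0 ∧ ∃ c : Kb, c ≠ 0 ∧ Rd A (cK c * s) r

variable {A}

section Rd

variable {s s' : LaurentSeries Kb} {r r' : LaurentSeries (kA A)}

theorem Rd.of_int (y : LaurentSeries A) : Rd A (coeffMap A.subtype y) (red A y) :=
  ⟨y, 1, by rw [map_one]; exact one_ne_zero, by rw [map_one, mul_one], by rw [map_one, mul_one]⟩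

theorem Rd.unique (h : Rd A s r) (h' : Rd A s r') : r = r' := by
  obtain ⟨y1, y2, h2, hs, hr⟩ := h
  obtain ⟨z1, z2, k2, ks, kr⟩ := h'
  have e : y1 * z2 = z1 * y2 := by
    apply coeffMap_subtype_injective
    rw [map_mul, map_mul, ← hs, ← ks]
    ring
  have e2 := congrArg (red A) e
  rw [map_mul, map_mul, ← hr, ← kr] at e2
  have e3 : r * (red A y2 * red A z2) = r' * (red A y2 * red A z2) := by
    calc r * (red A y2 * red A z2) = r * red A y2 * red A z2 := by ring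
      _ = r' * red A z2 * red A y2 := e2
      _ = _ := by ring
  exact mul_right_cancel₀ (mul_ne_zero h2 k2) e3

theorem Rd.zero : Rd A 0 0 := by
  have := Rd.of_int (A := A) 0
  rwa [map_zero, map_zero] at this

theorem Rd.one : Rd A 1 1 := by
  have := Rd.of_int (A := A) 1
  rwa [map_one, map_one] at this

theorem Rd.const (a : A) : Rd A (cK (a : Kb)) (ck A (IsLocalRing.residue A a)) := by
  have := Rd.of_int (A := A) (HahnSeries.single 0 a)
  rwa [coeffMap_subtype_single, red_single] at this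

theorem Rd.add (h : Rd A s r) (h' : Rd A s' r') : Rd A (s + s') (r + r') := by
  obtain ⟨y1, y2, h2, hs, hr⟩ := h
  obtain ⟨z1, z2, k2, ks, kr⟩ := h'
  refine ⟨y1 * z2 + z1 * y2, y2 * z2, by rw [map_mul]; exact mul_ne_zero h2 k2, ?_, ?_⟩
  · rw [map_add, map_mul, map_mul, map_mul, ← hs, ← ks]
    ring
  · rw [map_add, map_mul, map_mul, map_mul, ← hr, ← kr]
    ring

theorem Rd.neg (h : Rd A s r) : Rd A (-s) (-r) := by
  obtain ⟨y1, y2, h2, hs, hr⟩ := h
  exact ⟨-y1, y2, h2, by rw [map_neg, ← hs, neg_mul], by rw [map_neg, ← hr, neg_mul]⟩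

theorem Rd.sub (h : Rd A s r) (h' : Rd A s' r') : Rd A (s - s') (r - r') := by
  rw [sub_eq_add_neg, sub_eq_add_neg]
  exact h.add h'.neg

theorem Rd.mul (h : Rd A s r) (h' : Rd A s' r') : Rd A (s * s') (r * r') := by
  obtain ⟨y1, y2, h2, hs, hr⟩ := h
  obtain ⟨z1, z2, k2, ks, kr⟩ := h'
  refine ⟨y1 * z1, y2 * z2, by rw [map_mul]; exact mul_ne_zero h2 k2, ?_, ?_⟩
  · rw [map_mul, map_mul, ← hs, ← ks]
    ring
  · rw [map_mul, map_mul, ← hr, ← kr]
    ring

theorem Rd.pow (h : Rd A s r) (n : ℕ) : Rd A (s ^ n) (r ^ n) := by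
  induction n with
  | zero => rw [pow_zero, pow_zero]; exact Rd.one
  | succ n ih => rw [pow_succ, pow_succ]; exact ih.mul h

theorem Rd.ne_zero (h : Rd A s r) (hr : r ≠ 0) : s ≠ 0 := by
  rintro rfl
  obtain ⟨y1, y2, h2, hs, hr'⟩ := h
  rw [zero_mul] at hs
  have : y1 = 0 := coeffMap_subtype_injective (by rw [← hs, map_zero])
  rw [this, map_zero] at hr'
  exact (mul_ne_zero hr h2) hr'

theorem Rd.inv (h : Rd A s r) (hr : r ≠ 0) : Rd A s⁻¹ r⁻¹ := by
  have hs0 := h.ne_zero hr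
  obtain ⟨y1, y2, h2, hs, hr'⟩ := h
  refine ⟨y2, y1, by rw [← hr']; exact mul_ne_zero hr h2, ?_, ?_⟩
  · rw [← hs, ← mul_assoc, inv_mul_cancel₀ hs0, one_mul]
  · rw [← hr', ← mul_assoc, inv_mul_cancel₀ hr, one_mul]

theorem Rd.qExpand (ℓ : ℕ) [NeZero ℓ] (h : Rd A s r) :
    Rd A (qExpand Kb ℓ s) (qExpand (kA A) ℓ r) := by
  obtain ⟨y1, y2, h2, hs, hr⟩ := h
  refine ⟨ModularCurve.qExpand A ℓ y1, ModularCurve.qExpand A ℓ y2, ?_, ?_, ?_⟩
  · rw [coeffMap_qExpand]
    intro h0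
    exact h2 (qExpand_injective (R := kA A) ℓ (by rw [h0, map_zero]))
  · rw [coeffMap_qExpand, coeffMap_qExpand, ← hs, map_mul]
  · rw [coeffMap_qExpand, coeffMap_qExpand, ← hr, map_mul]

/-- `q ↦ ζ q` with `ζ ≡ 1` -/
theorem Rd.twist (ζ : Aˣ) (hζ : IsLocalRing.residue A (ζ : A) = 1) (h : Rd A s r) :
    Rd A (twist (Units.map (A.subtype : A →* Kb) ζ) s) r := by
  obtain ⟨y1, y2, h2, hs, hr⟩ := h
  have h1 : Units.map ((IsLocalRing.residue A : A →+* kA A) : A →* kA A) ζ = 1 := Units.ext hζ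
  have hred : ∀ y : LaurentSeries A, red A (ES.Alg.twist ζ y) = red A y := by
    intro y
    rw [coeffMap_twist, h1, twist_one]
  refine ⟨ES.Alg.twist ζ y1, ES.Alg.twist ζ y2, by rw [hred]; exact h2, ?_, by rw [hred, hred, hr]⟩
  rw [coeffMap_twist, coeffMap_twist, ← hs, map_mul]

theorem exists_conj_series {σ : GQ} (hσ : σ ∈ A.decompositionSubgroup ℚ) (φ : kA A →+* kA A)
    (hφ : ∀ a : A, IsLocalRing.residue A ⟨σ a, map_mem_of_decomp hσ a.2⟩ =
      φ (IsLocalRing.residue A a)) (y : LaurentSeries A) :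
    ∃ y' : LaurentSeries A, coeffMap A.subtype y' = coeffMap (σ : Kb →+* Kb) (coeffMap A.subtype y) ∧
      red A y' = coeffMap φ (red A y) := by
  obtain ⟨y', hy'⟩ := exists_lift (A := A) (coeffMap (σ : Kb →+* Kb) (coeffMap A.subtype y))
    (fun n => by
      rw [coeffMap_coeff, coeffMap_coeff]
      exact map_mem_of_decomp hσ (y.coeff n).2)
  refine ⟨y', hy', ?_⟩
  ext n
  rw [coeffMap_coeff, coeffMap_coeff, coeffMap_coeff, ← hφ]
  congr 1
  apply Subtype.ext
  have := congrArg (fun s => s.coeff n) hy'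
  simp only [coeffMap_coeff] at this
  exact this

/-- Galois conjugation -/
theorem Rd.conj {σ : GQ} (hσ : σ ∈ A.decompositionSubgroup ℚ) (φ : kA A →+* kA A)
    (hφ : ∀ a : A, IsLocalRing.residue A ⟨σ a, map_mem_of_decomp hσ a.2⟩ =
      φ (IsLocalRing.residue A a)) (h : Rd A s r) :
    Rd A (coeffMap (σ : Kb →+* Kb) s) (coeffMap φ r) := by
  obtain ⟨y1, y2, h2, hs, hr⟩ := h
  obtain ⟨z1, hz1, kz1⟩ := exists_conj_series hσ φ hφ y1
  obtain ⟨z2, hz2, kz2⟩ := exists_conj_series hσ φ hφ y2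
  refine ⟨z1, z2, by rw [kz2]; exact coeffMap_ne_zero φ φ.injective h2, ?_, ?_⟩
  · rw [hz1, hz2, ← hs, map_mul]
  · rw [kz1, kz2, ← hr, map_mul]

theorem Rd.frob {ℓ : ℕ} [Fact ℓ.Prime] [CharP (kA A) ℓ] {σ : GQ} (hσ : A.IsFrobeniusAt σ ℓ)
    (h : Rd A s r) : Rd A (coeffMap (σ : Kb →+* Kb) s) (coeffMap (frobenius (kA A) ℓ) r) := by
  refine Rd.conj hσ.mem_decompositionSubgroup _ (fun a => ?_) h
  rw [frobenius_def, ← map_pow]
  exact residue_eq_of_sub_mem (AbstractAux.frob_sub_mem A hσ a.2)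

/-- an integral constant -/
theorem Rd.const_mem {c : Kb} (h : Rd A (cK c) r) :
    ∃ hc : c ∈ A, r = ck A (IsLocalRing.residue A ⟨c, hc⟩) := by
  have hc : c ∈ A := by
    obtain ⟨y1, y2, h2, hs, -⟩ := h
    exact mem_of_mul_eq h2 hs
  exact ⟨hc, h.unique (Rd.const (⟨c, hc⟩ : A))⟩

end Rd

section Rp

variable {s s' : LaurentSeries Kb} {r r' : LaurentSeries (kA A)}

theorem cK_ne_zero {c : Kb} (hc : c ≠ 0) : cK c ≠ 0 := by
  rw [Ne, map_eq_zero]; exact hc

theorem cK_one : cK 1 = 1 := map_one _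

theorem cK_mul (c c' : Kb) : cK (c * c') = cK c * cK c' := map_mul _ _ _

theorem cK_inv (c : Kb) : cK c⁻¹ = (cK c)⁻¹ := map_inv₀ _ _

theorem cK_div (c c' : Kb) : cK (c / c') = cK c / cK c' := map_div₀ _ _ _

theorem ck_zero : ck A 0 = 0 := map_zero _

theorem ck_ne_zero {e : kA A} (he : e ≠ 0) : ck A e ≠ 0 := by
  rw [Ne, map_eq_zero]; exact he

theorem Rd.rp (h : Rd A s r) (hr : r ≠ 0) : Rp A s r :=
  ⟨hr, 1, one_ne_zero, by rw [cK_one, one_mul]; exact h⟩

theorem Rp.ne_zero (h : Rp A s r) : s ≠ 0 := by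
  obtain ⟨hr, c, -, h⟩ := h
  exact right_ne_zero_of_mul (h.ne_zero hr)

theorem Rp.one : Rp A 1 1 := Rd.one.rp one_ne_zero

theorem Rp.mul (h : Rp A s r) (h' : Rp A s' r') : Rp A (s * s') (r * r') := by
  obtain ⟨hr, c, hc, h⟩ := h
  obtain ⟨hr', c', hc', h'⟩ := h'
  refine ⟨mul_ne_zero hr hr', c * c', mul_ne_zero hc hc', ?_⟩
  have e : cK (c * c') * (s * s') = (cK c * s) * (cK c' * s') := by
    rw [cK_mul]; ring
  rw [e]
  exact h.mul h'

theorem Rp.pow (h : Rp A s r) (n : ℕ) : Rp A (s ^ n) (r ^ n) := by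
  induction n with
  | zero => rw [pow_zero, pow_zero]; exact Rp.one
  | succ n ih => rw [pow_succ, pow_succ]; exact ih.mul h

theorem Rp.inv (h : Rp A s r) : Rp A s⁻¹ r⁻¹ := by
  obtain ⟨hr, c, hc, h⟩ := h
  refine ⟨inv_ne_zero hr, c⁻¹, inv_ne_zero hc, ?_⟩
  have e : cK c⁻¹ * s⁻¹ = (cK c * s)⁻¹ := by
    rw [cK_inv, mul_inv]
  rw [e]
  exact h.inv hr

theorem Rp.prod_const {ι : Type*} (T : Finset ι) (f : ι → LaurentSeries Kb)
    (h : ∀ i ∈ T, Rp A (f i) r) (hr : r ≠ 0) : Rp A (∏ i ∈ T, f i) (r ^ T.card) := by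
  classical
  induction T using Finset.induction_on with
  | empty => rw [Finset.prod_empty, Finset.card_empty, pow_zero]; exact Rp.one
  | insert a T ha ih =>
    rw [Finset.prod_insert ha, Finset.card_insert_of_notMem ha, pow_succ']
    exact (h a (Finset.mem_insert_self a T)).mul
      (ih fun i hi => h i (Finset.mem_insert_of_mem hi))

/-- constants do not matter, upstairs -/
theorem Rp.const_mul (h : Rp A s r) {c : Kb} (hc : c ≠ 0) : Rp A (cK c * s) r := by
  obtain ⟨hr, c', hc', h⟩ := h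
  refine ⟨hr, c' / c, div_ne_zero hc' hc, ?_⟩
  have e : cK (c' / c) * (cK c * s) = cK c' * s := by
    rw [← mul_assoc, ← cK_mul, div_mul_cancel₀ _ hc]
  rw [e]
  exact h

/-- constants do not matter, downstairs -/
theorem Rp.mul_const (h : Rp A s r) {e : kA A} (he : e ≠ 0) : Rp A s (ck A e * r) := by
  obtain ⟨hr, c, hc, h⟩ := h
  obtain ⟨a, rfl⟩ := IsLocalRing.residue_surjective e
  have ha : (a : Kb) ≠ 0 := by
    intro h0
    apply he
    have : a = 0 := Subtype.ext h0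
    rw [this, map_zero]
  refine ⟨mul_ne_zero (ck_ne_zero he) hr, (a : Kb) * c, mul_ne_zero ha hc, ?_⟩
  have e : cK ((a : Kb) * c) * s = cK (a : Kb) * (cK c * s) := by
    rw [cK_mul, mul_assoc]
  rw [e]
  exact (Rd.const a).mul h

/-- uniqueness up to a constant -/
theorem Rp.unique (h : Rp A s r) (h' : Rp A s r') : ∃ e : kA A, e ≠ 0 ∧ r' = ck A e * r := by
  have hs := h.ne_zero
  obtain ⟨hr, c, hc, h⟩ := h
  obtain ⟨hr', c', hc', h'⟩ := h'
  have e : cK (c' / c) = (cK c' * s) * (cK c * s)⁻¹ := by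
    have := cK_ne_zero hc
    rw [cK_div, mul_inv, div_eq_mul_inv]
    field_simp
  have h3 : Rd A (cK (c' / c)) (r' * r⁻¹) := by
    rw [e]; exact h'.mul (h.inv hr)
  obtain ⟨hm, h4⟩ := h3.const_mem
  refine ⟨_, ?_, (by rw [← h4, mul_assoc, inv_mul_cancel₀ hr, mul_one] :
    r' = ck A (IsLocalRing.residue A ⟨c' / c, hm⟩) * r)⟩
  intro h0
  rw [h0, ck_zero] at h4
  exact (mul_ne_zero hr' (inv_ne_zero hr)) h4

theorem qExpand_cK (ℓ : ℕ) [NeZero ℓ] (c : Kb) : qExpand Kb ℓ (cK c) = cK c := by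
  rw [cK, algebraMap_laurentSeries_eq_single, qExpand_single, mul_zero]

theorem qExpand_ck (ℓ : ℕ) [NeZero ℓ] (e : kA A) : qExpand (kA A) ℓ (ck A e) = ck A e := by
  rw [ck, algebraMap_laurentSeries_eq_single, qExpand_single, mul_zero]

theorem Rp.qExpand (ℓ : ℕ) [NeZero ℓ] (h : Rp A s r) :
    Rp A (qExpand Kb ℓ s) (qExpand (kA A) ℓ r) := by
  obtain ⟨hr, c, hc, h⟩ := h
  refine ⟨fun h0 => hr (qExpand_injective (R := kA A) ℓ (by rw [h0, map_zero])), c, hc, ?_⟩
  have := h.qExpand ℓ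
  rwa [map_mul, qExpand_cK] at this

theorem twist_cK (ζ : Kbˣ) (c : Kb) : twist ζ (cK c) = cK c := by
  ext n
  rw [twist_coeff, cK, algebraMap_laurentSeries_eq_single]
  by_cases hn : n = 0
  · subst hn
    simp
  · rw [HahnSeries.coeff_single_of_ne hn, mul_zero]

theorem Rp.twist (ζ : Aˣ) (hζ : IsLocalRing.residue A (ζ : A) = 1) (h : Rp A s r) :
    Rp A (twist (Units.map (A.subtype : A →* Kb) ζ) s) r := by
  obtain ⟨hr, c, hc, h⟩ := h
  refine ⟨hr, c, hc, ?_⟩
  have := h.twist ζ hζ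
  rwa [map_mul, twist_cK] at this

theorem Rp.frob {ℓ : ℕ} [Fact ℓ.Prime] [CharP (kA A) ℓ] {σ : GQ} (hσ : A.IsFrobeniusAt σ ℓ)
    (h : Rp A s r) : Rp A (coeffMap (σ : Kb →+* Kb) s) (coeffMap (frobenius (kA A) ℓ) r) := by
  obtain ⟨hr, c, hc, h⟩ := h
  refine ⟨coeffMap_ne_zero _ (frobenius (kA A) ℓ).injective hr, σ c, ?_, ?_⟩
  · rw [Ne, EmbeddingLike.map_eq_zero_iff]; exact hc
  · have := h.frob hσ
    rwa [map_mul, coeffMap_algebraMap] at this

end Rp

section FN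

variable {N : ℕ} [NeZero N]

/-- every nonzero modular function has a reduction up to a constant (`ES.Alg.exists_scale`) -/
theorem exists_rp (A : ValuationSubring Kb) (x : FN N) (hx : x ≠ 0) :
    ∃ r : LaurentSeries (kA A), Rp A (x : LaurentSeries Kb) r := by
  obtain ⟨c, y1, y2, hc, -, -, h1, h2, h⟩ := exists_scale A x hx
  refine ⟨red A y1 / red A y2, div_ne_zero h1 h2, c⁻¹, inv_ne_zero hc, y1, y2, h2, ?_,
    div_mul_cancel₀ _ h2⟩
  rw [mul_assoc, h, ← mul_assoc, ← map_mul, inv_mul_cancel₀ hc, map_one, one_mul]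

/-- descent along `q ↦ q ^ ℓ` -/
theorem rp_of_qExpand (ℓ : ℕ) [NeZero ℓ] (x : FN N) {r : LaurentSeries (kA A)}
    (h : Rp A (qExpand Kb ℓ (x : LaurentSeries Kb)) (qExpand (kA A) ℓ r)) :
    Rp A (x : LaurentSeries Kb) r := by
  have hx : x ≠ 0 := by
    rintro rfl
    apply h.ne_zero
    simp
  obtain ⟨r0, h0⟩ := exists_rp A x hx
  obtain ⟨e, he, h1⟩ := (h0.qExpand ℓ).unique h
  have h2 : r = ck A e * r0 := by
    apply qExpand_injective (R := kA A) ℓ
    rw [h1, map_mul, qExpand_ck]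
  rw [h2]
  exact h0.mul_const he

theorem rp_one_iff (f : FN N) : Rp A (f : LaurentSeries Kb) 1 ↔
    ∃ c : Kb, c ≠ 0 ∧ Cong A N (algebraMap Kb (FN N) c * f) := by
  constructor
  · intro h
    have hf : f ≠ 0 := by
      rintro rfl
      exact h.ne_zero rfl
    obtain ⟨-, c, hc, h⟩ := h
    obtain ⟨c', Y1, Y2, hc', m1, m2, r1, r2, hY⟩ := exists_scale A f hf
    -- `c c'` is a unit with reduction `red Y2 / red Y1`
    have hY1 : coeffMap A.subtype Y1 ≠ 0 := ne_zero_of_red_ne_zero r1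
    have e : cK (c * c') = (cK c * (f : LaurentSeries Kb)) *
        (coeffMap A.subtype Y2 * (coeffMap A.subtype Y1)⁻¹) := by
      rw [mul_assoc, ← mul_assoc (f : LaurentSeries Kb), hY, mul_assoc, mul_inv_cancel₀ hY1, mul_one,
        cK_mul]
    have h3 : Rd A (cK (c * c')) (1 * (red A Y2 * (red A Y1)⁻¹)) := by
      rw [e]
      exact h.mul ((Rd.of_int Y2).mul ((Rd.of_int Y1).inv r1))
    obtain ⟨hm, h4⟩ := h3.const_mem
    rw [one_mul] at h4
    refine ⟨c, hc, HahnSeries.single 0 (⟨c * c', hm⟩ : A) * Y1, Y2, ?_, m2, ?_, ?_, r2⟩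
    · show coeffMap A.subtype _ ∈ _
      rw [map_mul, coeffMap_subtype_single]
      exact mul_mem ((modularFunctionFieldBar N).algebraMap_mem _) m1
    · rw [map_mul, coeffMap_subtype_single]
      show (cK c * (f : LaurentSeries Kb)) * _ = cK (c * c') * _
      rw [mul_assoc, hY, cK_mul, mul_assoc]
    · rw [map_mul, red_single]
      show ck A _ * _ = _
      rw [← h4, mul_assoc, inv_mul_cancel₀ r1, mul_one]
  · rintro ⟨c, hc, y1, y2, -, -, h, h12, h2⟩
    exact ⟨one_ne_zero, c, hc, y1, y2, h2, h, by rw [one_mul, h12]⟩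

end FN

end Fermat.Agent.S35
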